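/-
GATE-B / S43, leaf GB-B3-BOUNDARY, part A (helper74): **the boundary is Eisenstein — abstract
reduction**.

`L` a module (`= Hom(Γ_H, O)`), `ev x : L → O` a family of evaluation functionals
(`x` = the parabolic elements of `Γ_H`), `τ` an endomorphism (`= T_ℓ - ℓ - 1`), `D i` a finite
family of commuting endomorphisms (`=` generating diamonds, of `p`-power orders `q i`), commuting
with `τ`.  Write `V j := {ψ | ∀ x, ϖ ^ j ∣ ev x ψ}`.

Hypothesis `hstar` (the matrix lemma (★★), modulo `ϖ ^ j`): if all `(D i - 1) ψ` lie in `V j`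
(the boundary values of `ψ` are diamond-invariant modulo `ϖ ^ j`) then `τ ψ ∈ V j`.

Conclusions: `τ ^ n` maps `V j` into `V (j + 1)` (`n = ∑ (q i - 1) + 1`), and every `φ` which is
infinitely `τ`-divisible has all `ev x φ = 0` when `⋂ ϖ ^ j O = 0`.  In particular the `𝔪`-primary
part of `L`, `τ ∉ 𝔪`, consists of parabolic classes (`isLoc_ev_eq_zero`).
-/
import Mathlib
import Fermat.Agent.GB.B3.Realizes

set_option autoImplicit false
set_option linter.unusedSectionVars false

namespace Fermat.Agent.GB.B3.Boundary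

open Fermat.Agent.GB.B3.RealLevel

section Words

variable {R : Type*} [Ring R] {ι : Type*} [Fintype ι] [DecidableEq ι]

/-- a word in commuting letters `x i` is `x i ^ (count i)` times a word without `i` -/
theorem word_prod_eq (x : ι → R) (hx : ∀ i i', Commute (x i) (x i')) (i : ι) (w : List ι) :
    (w.map x).prod = ((w.filter (· ≠ i)).map x).prod * x i ^ w.count i := by
  induction w with
  | nil => simp
  | cons a w ih =>
    by_cases ha : a = i
    · subst ha
      have hcomm : Commute (x a) (((w.filter (· ≠ a)).map x).prod) := by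
        refine Commute.list_prod_right _ _ fun y hy => ?_
        obtain ⟨b, -, rfl⟩ := List.mem_map.1 hy
        exact hx a b
      rw [List.map_cons, List.prod_cons, ih, List.count_cons_self, pow_succ',
        List.filter_cons_of_neg (by simp), ← mul_assoc, ← mul_assoc, hcomm.eq]
    · rw [List.map_cons, List.prod_cons, ih, List.count_cons_of_ne ha,
        List.filter_cons_of_pos (by simpa using ha), List.map_cons, List.prod_cons, mul_assoc]

/-- pigeonhole: a word of length `> ∑ (q i - 1)` contains some letter `i` at least `q i` times -/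
theorem exists_count_ge (q : ι → ℕ) (w : List ι)
    (hw : ∑ i, (q i - 1) < w.length) : ∃ i, q i ≤ w.count i := by
  by_contra hcon
  push Not at hcon
  have h1 : w.length = ∑ i, w.count i := by
    rw [← List.sum_toFinset_count_eq_length]
    refine (Finset.sum_subset (Finset.subset_univ _) fun i _ hi => ?_)
    exact List.count_eq_zero_of_not_mem (by simpa using hi)
  have h2 : ∑ i, w.count i ≤ ∑ i, (q i - 1) :=
    Finset.sum_le_sum fun i _ => Nat.le_sub_one_of_lt (hcon i)
  omega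

end Words

section Main

variable {O : Type*} [CommRing O] (ϖ : O) {L : Type*} [AddCommGroup L] [Module O L]
  {X : Type*} (ev : X → L →ₗ[O] O)

/-- the classes whose boundary values are divisible by `ϖ ^ j` -/
def V (j : ℕ) : Submodule O L where
  carrier := {ψ | ∀ x, ϖ ^ j ∣ ev x ψ}
  zero_mem' := fun x => by rw [map_zero]; exact dvd_zero _
  add_mem' := fun ha hb x => by rw [map_add]; exact dvd_add (ha x) (hb x)
  smul_mem' := fun c a ha x => by rw [map_smul, smul_eq_mul]; exact Dvd.dvd.mul_left (ha x) c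

theorem mem_V {j : ℕ} {ψ : L} : ψ ∈ V ϖ ev j ↔ ∀ x, ϖ ^ j ∣ ev x ψ := Iff.rfl

theorem V_zero : V ϖ ev 0 = ⊤ := by
  rw [eq_top_iff]
  intro ψ _ x
  rw [pow_zero]
  exact one_dvd _

theorem V_succ_le (j : ℕ) : V ϖ ev (j + 1) ≤ V ϖ ev j := fun _ h x =>
  (pow_dvd_pow ϖ (Nat.le_succ j)).trans (h x)

variable {ι : Type*} [Fintype ι] (τ : Module.End O L) (D : ι → Module.End O L) (q : ι → ℕ)

/-- the standing hypotheses of the reduction -/
structure Hyp : Prop where
  hDcomm : ∀ i i', Commute (D i) (D i')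
  hτD : ∀ i, Commute τ (D i)
  /-- the diamonds preserve the filtration -/
  hDV : ∀ j i ψ, ψ ∈ V ϖ ev j → D i ψ ∈ V ϖ ev j
  /-- `(D i - 1) ^ (q i)` raises the filtration (`D i ^ q i = 1`, `q i` a power of `p ∈ (ϖ)`) -/
  hnil : ∀ j i ψ, ψ ∈ V ϖ ev j → ((D i - 1) ^ q i) ψ ∈ V ϖ ev (j + 1)
  /-- **(★★)**: diamond-invariant boundary values modulo `ϖ ^ j` are killed by `τ` modulo `ϖ ^ j` -/
  hstar : ∀ j ψ, (∀ i, (D i - 1) ψ ∈ V ϖ ev j) → τ ψ ∈ V ϖ ev j

variable {ϖ ev τ D q}

namespace Hyp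

variable (h : Hyp ϖ ev τ D q)
include h

theorem sub_one_mem (j : ℕ) (i : ι) {ψ : L} (hψ : ψ ∈ V ϖ ev j) : (D i - 1) ψ ∈ V ϖ ev j := by
  rw [LinearMap.sub_apply, Module.End.one_apply]
  exact Submodule.sub_mem _ (h.hDV j i ψ hψ) hψ

theorem τ_mem (j : ℕ) {ψ : L} (hψ : ψ ∈ V ϖ ev j) : τ ψ ∈ V ϖ ev j :=
  h.hstar j ψ fun i => h.sub_one_mem j i hψ

theorem τ_pow_mem (j n : ℕ) {ψ : L} (hψ : ψ ∈ V ϖ ev j) : (τ ^ n) ψ ∈ V ϖ ev j := by
  induction n with
  | zero => simpa using hψ
  | succ n ih => rw [pow_succ', Module.End.mul_apply]; exact h.τ_mem j ih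

theorem commute_τ_sub_one (i : ι) : Commute τ (D i - 1) :=
  (h.hτD i).sub_right (Commute.one_right τ)

theorem commute_sub_one (i i' : ι) : Commute (D i - 1) (D i' - 1) :=
  ((h.hDcomm i i').sub_right (Commute.one_right _)).sub_left (Commute.one_left _)

/-- words in the `D i - 1` preserve the filtration -/
theorem word_mem (j : ℕ) (w : List ι) {ψ : L} (hψ : ψ ∈ V ϖ ev j) :
    ((w.map fun i => D i - 1).prod) ψ ∈ V ϖ ev j := by
  induction w with
  | nil => simpa using hψ
  | cons a w ih =>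
    rw [List.map_cons, List.prod_cons, Module.End.mul_apply]
    exact h.sub_one_mem j a ih

/-- long words raise the filtration -/
theorem long_word_mem [DecidableEq ι] (j : ℕ) (w : List ι) (hw : ∑ i, (q i - 1) < w.length)
    {ψ : L} (hψ : ψ ∈ V ϖ ev j) : ((w.map fun i => D i - 1).prod) ψ ∈ V ϖ ev (j + 1) := by
  obtain ⟨i, hi⟩ := exists_count_ge q w hw
  rw [word_prod_eq (fun i => D i - 1) h.commute_sub_one i w, Module.End.mul_apply]
  have h1 : ((D i - 1) ^ w.count i) ψ ∈ V ϖ ev (j + 1) := by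
    obtain ⟨c, hc⟩ := Nat.exists_eq_add_of_le hi
    rw [hc, pow_add, Module.End.mul_apply]
    have h2 : ((D i - 1) ^ c) ψ ∈ V ϖ ev j := by
      have := h.word_mem j (List.replicate c i) hψ
      rwa [List.map_replicate, List.prod_replicate] at this
    exact h.hnil j i _ h2
  exact h.word_mem (j + 1) _ h1

/-- `τ` lowers the word-depth: if every word of length `m + 1` sends `ψ ∈ V j` into `V (j+1)`,
then every word of length `m` sends `τ ψ` into `V (j+1)` -/
theorem τ_depth (j m : ℕ) {ψ : L}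
    (hw : ∀ w : List ι, w.length = m + 1 → ((w.map fun i => D i - 1).prod) ψ ∈ V ϖ ev (j + 1))
    (w : List ι) (hwl : w.length = m) :
    ((w.map fun i => D i - 1).prod) (τ ψ) ∈ V ϖ ev (j + 1) := by
  have hcomm : Commute τ ((w.map fun i => D i - 1).prod) := by
    refine Commute.list_prod_right _ _ fun y hy => ?_
    obtain ⟨b, -, rfl⟩ := List.mem_map.1 hy
    exact h.commute_τ_sub_one b
  have e : ((w.map fun i => D i - 1).prod) (τ ψ) = τ (((w.map fun i => D i - 1).prod) ψ) := by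
    rw [← Module.End.mul_apply, ← Module.End.mul_apply, hcomm.eq]
  rw [e]
  refine h.hstar (j + 1) _ fun i => ?_
  have := hw (i :: w) (by rw [List.length_cons, hwl])
  rwa [List.map_cons, List.prod_cons, Module.End.mul_apply] at this

/-- iterating `τ_depth` -/
theorem τ_pow_depth (j m k : ℕ) {ψ : L}
    (hw : ∀ w : List ι, w.length = m + k → ((w.map fun i => D i - 1).prod) ψ ∈ V ϖ ev (j + 1))
    (w : List ι) (hwl : w.length = m) :
    ((w.map fun i => D i - 1).prod) ((τ ^ k) ψ) ∈ V ϖ ev (j + 1) := by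
  induction k generalizing m w with
  | zero => simpa using hw w (by simpa using hwl)
  | succ k ih =>
    rw [pow_succ', Module.End.mul_apply]
    refine h.τ_depth j m (fun w' hw' => ?_) w hwl
    exact ih (m + 1) (fun w'' hw'' => hw w'' (by omega)) w' hw'

/-- **`τ ^ n` raises the filtration**, `n = ∑ (q i - 1) + 1` -/
theorem τ_pow_raise (j : ℕ) {ψ : L} (hψ : ψ ∈ V ϖ ev j) :
    (τ ^ (∑ i, (q i - 1) + 1)) ψ ∈ V ϖ ev (j + 1) := by
  classical
  have := h.τ_pow_depth j 0 (∑ i, (q i - 1) + 1) (ψ := ψ)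
    (fun w hw => h.long_word_mem j w (by omega) hψ) [] rfl
  simpa using this

/-- iterating: `τ ^ (n * j)` maps everything into `V j` -/
theorem τ_pow_mul_mem (j : ℕ) (ψ : L) : (τ ^ ((∑ i, (q i - 1) + 1) * j)) ψ ∈ V ϖ ev j := by
  induction j with
  | zero => rw [V_zero]; trivial
  | succ j ih =>
    have e : (∑ i, (q i - 1) + 1) * (j + 1) = (∑ i, (q i - 1) + 1) + (∑ i, (q i - 1) + 1) * j := by
      ring
    rw [e, pow_add, Module.End.mul_apply]
    exact h.τ_pow_raise j ih

/-- **infinitely `τ`-divisible classes have boundary values in `⋂ ϖ ^ j O`** -/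
theorem dvd_ev_of_divisible {φ : L} (hφ : ∀ n : ℕ, ∃ y, (τ ^ n) y = φ) (x : X) (j : ℕ) :
    ϖ ^ j ∣ ev x φ := by
  obtain ⟨y, rfl⟩ := hφ ((∑ i, (q i - 1) + 1) * j)
  exact h.τ_pow_mul_mem j y x

/-- **infinitely `τ`-divisible classes are parabolic** when `⋂ ϖ ^ j O = 0` -/
theorem ev_eq_zero_of_divisible (hsep : ∀ a : O, (∀ j : ℕ, ϖ ^ j ∣ a) → a = 0) {φ : L}
    (hφ : ∀ n : ℕ, ∃ y, (τ ^ n) y = φ) (x : X) : ev x φ = 0 :=
  hsep _ fun j => h.dvd_ev_of_divisible hφ x j

/-- **the `𝔪`-primary part consists of parabolic classes**: `τ = act τ₀` with `τ₀ ∉ 𝔪` -/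
theorem isLoc_ev_eq_zero {A : Type*} [CommRing A] [Algebra O A] (act : A →ₐ[O] Module.End O L)
    (𝔪 : Ideal A) [𝔪.IsPrime] (τ₀ : A) (hτ₀ : τ₀ ∉ 𝔪) (hτ : act τ₀ = τ)
    (hsep : ∀ a : O, (∀ j : ℕ, ϖ ^ j ∣ a) → a = 0) {φ : L} (hφ : IsLoc act 𝔪 φ) (x : X) :
    ev x φ = 0 := by
  refine h.ev_eq_zero_of_divisible hsep (fun n => ?_) x
  obtain ⟨y, hy⟩ := hφ (τ₀ ^ n) (fun hmem => hτ₀ (Ideal.IsPrime.mem_of_pow_mem ‹_› n hmem))
  exact ⟨y, by rw [← hτ, ← map_pow]; exact hy⟩

end Hyp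

end Main

/-! ### the hypothesis `hnil` from `D ^ q = 1`, `q = p ^ m`, `p ∈ (ϖ)` -/

section Nil

variable {O : Type*} [CommRing O] (ϖ : O) {L : Type*} [AddCommGroup L] [Module O L]
  {X : Type*} (ev : X → L →ₗ[O] O)

/-- `(D - 1) ^ (p ^ m)` raises the filtration when `D ^ (p ^ m) = 1`, `p ∈ (ϖ)` and `D` preserves
the filtration -/
theorem sub_one_pow_mem (p : ℕ) (hp : p.Prime) (hpϖ : ϖ ∣ (p : O)) (D : Module.End O L) (m : ℕ)
    (hD : D ^ p ^ m = 1) (j : ℕ) (hDV : ∀ ψ, ψ ∈ V ϖ ev j → D ψ ∈ V ϖ ev j) {ψ : L}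
    (hψ : ψ ∈ V ϖ ev j) : ((D - 1) ^ p ^ m) ψ ∈ V ϖ ev (j + 1) := by
  have hDk : ∀ k : ℕ, (D ^ k) ψ ∈ V ϖ ev j := by
    intro k
    induction k with
    | zero => simpa using hψ
    | succ k ih => rw [pow_succ', Module.End.mul_apply]; exact hDV _ ih
  -- `p • V j ⊆ V (j+1)`
  have hpV : ∀ χ : L, χ ∈ V ϖ ev j → ∀ c : ℤ, (p : ℤ) ∣ c → c • χ ∈ V ϖ ev (j + 1) := by
    intro χ hχ c hc x
    obtain ⟨c', rfl⟩ := hc
    rw [map_zsmul, mul_smul, ← Int.cast_smul_eq_zsmul O, ← Int.cast_smul_eq_zsmul O (c') ,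
      smul_eq_mul, smul_eq_mul, pow_succ']
    have h1 : ϖ ∣ ((p : ℤ) : O) := by simpa using hpϖ
    exact mul_dvd_mul h1 (Dvd.dvd.mul_left (hχ x) _)
  have hcomm : Commute D (-1 : Module.End O L) := (Commute.one_right D).neg_right
  have hexp : (D - 1) ^ p ^ m = (D + -1) ^ p ^ m := by rw [sub_eq_add_neg]
  -- every term of the binomial expansion is an integer multiple of `D ^ k ψ`
  have hterm : ∀ k : ℕ, (D ^ k * (-1) ^ (p ^ m - k) * ((p ^ m).choose k : Module.End O L)) ψ
      = (((-1) ^ (p ^ m - k) * ((p ^ m).choose k : ℤ) : ℤ)) • (D ^ k) ψ := by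
    intro k
    have h1 : ((-1 : Module.End O L) ^ (p ^ m - k) * ((p ^ m).choose k : Module.End O L))
        = (((-1) ^ (p ^ m - k) * ((p ^ m).choose k : ℤ) : ℤ) : Module.End O L) := by
      push_cast
      rfl
    rw [mul_assoc, h1, Module.End.mul_apply, Module.End.intCast_apply, map_zsmul]
  rw [hexp, hcomm.add_pow, LinearMap.sum_apply]
  obtain ⟨q', hq'⟩ : ∃ q', p ^ m = q' + 1 := Nat.exists_eq_succ_of_ne_zero (pow_pos hp.pos m).ne'
  rw [hq', Finset.sum_range_succ, Finset.sum_range_succ', add_assoc]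
  refine Submodule.add_mem _ (Submodule.sum_mem _ fun k hk => ?_) ?_
  · -- the middle terms: `p ∣ choose`
    rw [← hq', hterm]
    refine hpV _ (hDk _) _ (Dvd.dvd.mul_left ?_ _)
    have hk' : k + 1 < p ^ m := by rw [hq']; exact Nat.succ_lt_succ (Finset.mem_range.1 hk)
    exact_mod_cast hp.dvd_choose_pow (Nat.succ_ne_zero k) hk'.ne
  · -- the two extreme terms
    rw [← hq', hterm, hterm, Nat.choose_zero_right, Nat.choose_self, pow_zero,
      Module.End.one_apply, hD, Module.End.one_apply, Nat.sub_zero, Nat.sub_self, pow_zero,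
      ← add_smul]
    refine hpV _ hψ _ ?_
    rcases hp.eq_two_or_odd' with h2 | hodd
    · subst h2
      rcases Nat.eq_zero_or_pos m with hm | hm
      · subst hm; norm_num
      · have he : Even (2 ^ m) := (Nat.even_pow' hm.ne').2 even_two
        rw [he.neg_one_pow]; norm_num
    · have ho : Odd (p ^ m) := hodd.pow
      rw [ho.neg_one_pow]; norm_num

end Nil

end Fermat.Agent.GB.B3.Boundary
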