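/-
GATE-B leaf GB-B3-BOUNDARY part B (helper11), file 2/3: arithmetic of unipotent elements of
`SL(2, ℤ)`.

* `exists_eq_conj_T_zpow` : an element of trace `2` is `g * T ^ t * g⁻¹`;
* `exists_T_conj_mem_Gamma0` : for `N` squarefree, `ℓ ∤ N`, if the lower left entries of `g`, `g'`
  agree up to factors in `{1, ℓ}` then `g' * T ^ m * g⁻¹ ∈ Γ₀(N)` for some `m`
  (so `g * T ^ s * g⁻¹` and `g' * T ^ s * g'⁻¹` are conjugate under `Γ₀(N)`);
* `cast_apply_one_one_of_trace_eq_two` : for `N` squarefree, a unipotent element of `Γ₀(N)` has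
  `d ≡ 1 mod N`.
-/
import Mathlib
import Fermat.Agent.S16_helper49.HeckeHom

set_option autoImplicit false

open scoped MatrixGroups
open CongruenceSubgroup Matrix Matrix.SpecialLinearGroup
open P2MW.S_ModularForm_heckeT_slash_eq_self_of_mem_Gamma0.ModularForm.HeckeSlashInvariance
open Fermat.Agent.S16_helper49

namespace Fermat.Agent.GB.B3.Boundary.Mat

/-! ### unipotent elements are conjugates of translations -/

theorem sl_eq_T_zpow_of (h : SL(2, ℤ)) (h00 : h 0 0 = 1) (h10 : h 1 0 = 0) :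
    h = ModularGroup.T ^ (h 0 1) := by
  have hdet := det_eq h
  rw [h00, h10, mul_zero, sub_zero, one_mul] at hdet
  apply Matrix.SpecialLinearGroup.ext
  intro i j
  rw [ModularGroup.coe_T_zpow]
  fin_cases i <;> fin_cases j <;> simp [h00, h10, hdet]

theorem exists_eq_conj_T_zpow (u : SL(2, ℤ))
    (hu : (u : Matrix (Fin 2) (Fin 2) ℤ).trace = 2) :
    ∃ (g : SL(2, ℤ)) (t : ℤ), u = g * ModularGroup.T ^ t * g⁻¹ := by
  have htr : u 0 0 + u 1 1 = 2 := by
    rw [Matrix.trace_fin_two] at hu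
    exact hu
  have hdet := det_eq u
  -- `p² + b c = 0`
  have hp : (u 0 0 - 1) * (u 0 0 - 1) + u 0 1 * u 1 0 = 0 := by
    have h11 : u 1 1 = 2 - u 0 0 := by linarith
    rw [h11] at hdet
    linear_combination -hdet
  by_cases h0 : u 0 0 - 1 = 0 ∧ u 1 0 = 0
  · refine ⟨1, u 0 1, ?_⟩
    rw [one_mul, inv_one, mul_one]
    exact sl_eq_T_zpow_of u (by linarith [h0.1]) h0.2
  · have hpos : 0 < Int.gcd (u 0 0 - 1) (u 1 0) := by
      rw [Int.gcd_pos_iff]
      by_contra hcon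
      exact h0 ⟨by_contra fun h => hcon (Or.inl h), by_contra fun h => hcon (Or.inr h)⟩
    obtain ⟨x, z, hxz, hx, hz⟩ := Int.exists_gcd_one hpos
    set G : ℤ := (Int.gcd (u 0 0 - 1) (u 1 0) : ℤ) with hG
    have hG0 : G ≠ 0 := by
      rw [hG]
      exact_mod_cast hpos.ne'
    obtain ⟨r, s, hrs⟩ := Int.isCoprime_iff_gcd_eq_one.mpr hxz
    -- `u v = v`
    have E1 : u 0 0 * x + u 0 1 * z = x := by
      have : G * (u 0 0 * x + u 0 1 * z - x) = 0 := by
        have e1 : G * x = u 0 0 - 1 := by rw [hx]; ring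
        have e2 : G * z = u 1 0 := by rw [hz]; ring
        calc G * (u 0 0 * x + u 0 1 * z - x)
            = (u 0 0 - 1) * (G * x) + u 0 1 * (G * z) := by ring
          _ = 0 := by rw [e1, e2]; exact hp
      have := (mul_eq_zero.mp this).resolve_left hG0
      linarith
    have E2 : u 1 0 * x + u 1 1 * z = z := by
      have : G * (u 1 0 * x + u 1 1 * z - z) = 0 := by
        have e1 : G * x = u 0 0 - 1 := by rw [hx]; ring
        have e2 : G * z = u 1 0 := by rw [hz]; ring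
        have h11 : u 1 1 - 1 = -(u 0 0 - 1) := by linarith
        calc G * (u 1 0 * x + u 1 1 * z - z)
            = u 1 0 * (G * x) + (u 1 1 - 1) * (G * z) := by ring
          _ = 0 := by rw [e1, e2, h11]; ring
      have := (mul_eq_zero.mp this).resolve_left hG0
      linarith
    let g : SL(2, ℤ) := ⟨!![x, -s; z, r], by
      rw [Matrix.det_fin_two_of]
      linarith⟩
    have g00 : g 0 0 = x := rfl
    have g01 : g 0 1 = -s := rfl
    have g10 : g 1 0 = z := rfl
    have g11 : g 1 1 = r := rfl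
    set h : SL(2, ℤ) := g⁻¹ * u * g with hh
    have h00 : h 0 0 = 1 := by
      rw [hh]
      simp only [Matrix.SpecialLinearGroup.coe_mul, Matrix.SpecialLinearGroup.coe_inv,
        Matrix.adjugate_fin_two, Matrix.mul_apply, Fin.sum_univ_two, g00, g01, g10, g11,
        Matrix.of_apply, Matrix.cons_val', Matrix.cons_val_zero, Matrix.cons_val_one,
        Matrix.cons_val_fin_one]
      linear_combination r * E1 + s * E2 + hrs
    have h10 : h 1 0 = 0 := by
      rw [hh]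
      simp only [Matrix.SpecialLinearGroup.coe_mul, Matrix.SpecialLinearGroup.coe_inv,
        Matrix.adjugate_fin_two, Matrix.mul_apply, Fin.sum_univ_two, g00, g01, g10, g11,
        Matrix.of_apply, Matrix.cons_val', Matrix.cons_val_zero, Matrix.cons_val_one,
        Matrix.cons_val_fin_one]
      linear_combination (-z) * E1 + x * E2
    refine ⟨g, h 0 1, ?_⟩
    rw [← sl_eq_T_zpow_of h h00 h10, hh]
    group

/-! ### `Γ₀(N)`-conjugacy of the conjugates of translations -/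

theorem apply_one_zero_conj (g g' : SL(2, ℤ)) (m : ℤ) :
    (g' * ModularGroup.T ^ m * g⁻¹) 1 0 = g' 1 0 * g 1 1 - (g' 1 1 + m * g' 1 0) * g 1 0 := by
  simp only [Matrix.SpecialLinearGroup.coe_mul, Matrix.SpecialLinearGroup.coe_inv,
    Matrix.adjugate_fin_two, Matrix.mul_apply, Fin.sum_univ_two, ModularGroup.coe_T_zpow,
    Matrix.of_apply, Matrix.cons_val', Matrix.cons_val_zero, Matrix.cons_val_one,
    Matrix.cons_val_fin_one]
  ring

theorem exists_T_conj_mem_Gamma0 {N : ℕ} (hN : Squarefree N) {ℓ : ℕ} [Fact ℓ.Prime]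
    (hℓN : ¬ ℓ ∣ N) (g g' : SL(2, ℤ)) (e f : ℤ) (he : e = 1 ∨ e = ℓ) (hf : f = 1 ∨ f = ℓ)
    (h : e * g 1 0 = f * g' 1 0) :
    ∃ m : ℤ, g' * ModularGroup.T ^ m * g⁻¹ ∈ Gamma0 N := by
  set c := g 1 0 with hc
  set c' := g' 1 0 with hc'
  set G : ℤ := (Int.gcd (c * c') (N : ℤ) : ℤ) with hG
  have hGN : G ∣ (N : ℤ) := Int.gcd_dvd_right _ _
  have hGcc : G ∣ c * c' := Int.gcd_dvd_left _ _
  have hGsq : Squarefree G :=
    Squarefree.squarefree_of_dvd hGN (Int.squarefree_natCast.mpr hN)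
  have hcopℓ : IsCoprime G (ℓ : ℤ) := by
    have h1 : IsCoprime (N : ℤ) (ℓ : ℤ) :=
      Nat.isCoprime_iff_coprime.mpr
        ((Nat.Prime.coprime_iff_not_dvd Fact.out).mpr hℓN).symm
    exact h1.of_isCoprime_of_dvd_left hGN
  have hcop : ∀ a : ℤ, (a = 1 ∨ a = ℓ) → IsCoprime G a := by
    rintro a (rfl | rfl)
    · exact isCoprime_one_right
    · exact hcopℓ
  have hGc : G ∣ c := by
    have h1 : G ∣ c ^ 2 * e := by
      have : c ^ 2 * e = f * (c * c') - c * (f * c' - e * c) := by ring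
      rw [this, ← h, sub_self, mul_zero, sub_zero]
      exact Dvd.dvd.mul_left hGcc f
    exact (hGsq.dvd_pow_iff_dvd two_ne_zero).mp ((hcop e he).dvd_of_dvd_mul_right h1)
  have hGc' : G ∣ c' := by
    have h1 : G ∣ c' ^ 2 * f := by
      have : c' ^ 2 * f = e * (c * c') + c' * (f * c' - e * c) := by ring
      rw [this, ← h, sub_self, mul_zero, add_zero]
      exact Dvd.dvd.mul_left hGcc e
    exact (hGsq.dvd_pow_iff_dvd two_ne_zero).mp ((hcop f hf).dvd_of_dvd_mul_right h1)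
  have hGB : G ∣ c' * g 1 1 - g' 1 1 * c :=
    dvd_sub (Dvd.dvd.mul_right hGc' _) (Dvd.dvd.mul_left hGc _)
  obtain ⟨B', hB'⟩ := hGB
  have hbez : G = (c * c') * Int.gcdA (c * c') N + N * Int.gcdB (c * c') N :=
    Int.gcd_eq_gcd_ab _ _
  refine ⟨Int.gcdA (c * c') N * B', mem_Gamma0_of_dvd ?_⟩
  rw [apply_one_zero_conj]
  refine ⟨Int.gcdB (c * c') N * B', ?_⟩
  have : c' * g 1 1 - (g' 1 1 + Int.gcdA (c * c') N * B' * c') * c
      = (c' * g 1 1 - g' 1 1 * c) - (c * c') * Int.gcdA (c * c') N * B' := by ring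
  rw [this, hB']
  linear_combination B' * hbez

/-! ### unipotent elements of `Γ₀(N)`, `N` squarefree -/

theorem cast_apply_one_one_of_trace_eq_two {N : ℕ} (hN : Squarefree N) (u : SL(2, ℤ))
    (hu : (u : Matrix (Fin 2) (Fin 2) ℤ).trace = 2) (huN : u ∈ Gamma0 N) :
    ((u 1 1 : ℤ) : ZMod N) = 1 := by
  have htr : u 0 0 + u 1 1 = 2 := by
    rw [Matrix.trace_fin_two] at hu
    exact hu
  have hdet := det_eq u
  have hdvd : (N : ℤ) ∣ u 1 0 := dvd_of_mem_Gamma0 (N := N) ⟨u, huN⟩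
  have hp : (u 1 1 - 1) ^ 2 = -(u 0 1 * u 1 0) := by
    have h00 : u 0 0 = 2 - u 1 1 := by linarith
    rw [h00] at hdet
    linear_combination -hdet
  have h1 : (N : ℤ) ∣ (u 1 1 - 1) ^ 2 := by
    rw [hp]
    exact (Dvd.dvd.mul_left hdvd _).neg_right
  have h2 : (N : ℤ) ∣ u 1 1 - 1 :=
    ((Int.squarefree_natCast.mpr hN).dvd_pow_iff_dvd two_ne_zero).mp h1
  have h3 : ((u 1 1 - 1 : ℤ) : ZMod N) = 0 := (ZMod.intCast_zmod_eq_zero_iff_dvd _ _).mpr h2
  push_cast at h3
  linear_combination h3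

end Fermat.Agent.GB.B3.Boundary.Mat
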