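/-
GATE-B leaf GB-B3-BOUNDARY part B (helper11), file 3/3: **the matrix lemma (★★)**.

`N` squarefree, `ℓ ∤ N` prime, `Γ_H = GammaH θ ≤ Γ₀(N)`.  If `ψ : Γ_H → A` is a homomorphism whose
values on parabolic elements (`tr² = 4`) are invariant under conjugation by `Γ₀(N)`, then for every
parabolic `γ ∈ Γ_H`
  `(T_ℓ ψ)(γ) = (ℓ + 1) • ψ(γ)`   (`TH_apply_of_parabolic`).
-/
import Mathlib
import Fermat.Agent.GB.B3.GammaH
import Fermat.Agent.GB.B3.Boundary.MatCZ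
import Fermat.Agent.GB.B3.Boundary.MatArith

set_option autoImplicit false

open scoped MatrixGroups
open CongruenceSubgroup Matrix Matrix.SpecialLinearGroup
open P2MW.S_ModularForm_heckeT_slash_eq_self_of_mem_Gamma0.ModularForm.HeckeSlashInvariance
open P2MW.S_ModularForm_heckeT_slash_eq_self_of_mem_Gamma0.ModularForm
open Fermat.Agent.S16_helper49 Fermat.Agent.GM.B Fermat.Agent.GM.EisClass
open Fermat.Agent.GB.B3 Fermat.Agent.GB.B3.EisGamma0 Fermat.Agent.GB.B3.GamH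
open scoped OnePoint

namespace Fermat.Agent.GB.B3.Boundary.Mat

/-! ### traces -/

theorem trace_conj_SL (g b : SL(2, ℤ)) :
    ((g * b * g⁻¹ : SL(2, ℤ)) : Matrix (Fin 2) (Fin 2) ℤ).trace
      = (b : Matrix (Fin 2) (Fin 2) ℤ).trace := by
  rw [Matrix.SpecialLinearGroup.coe_mul, Matrix.trace_mul_comm,
    ← Matrix.SpecialLinearGroup.coe_mul, inv_mul_cancel_left]

theorem trace_T_zpow (s : ℤ) :
    ((ModularGroup.T ^ s : SL(2, ℤ)) : Matrix (Fin 2) (Fin 2) ℤ).trace = 2 := by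
  rw [ModularGroup.coe_T_zpow, Matrix.trace_fin_two_of]
  norm_num

theorem trace_conj_T_zpow (g : SL(2, ℤ)) (s : ℤ) :
    ((g * ModularGroup.T ^ s * g⁻¹ : SL(2, ℤ)) : Matrix (Fin 2) (Fin 2) ℤ).trace = 2 := by
  rw [trace_conj_SL, trace_T_zpow]

/-! ### sums over `P¹(𝔽_ℓ)` -/

section Sums

variable {ℓ : ℕ} [Fact ℓ.Prime] {A : Type*} [AddCommGroup A]

theorem sum_onePoint (F : OnePoint (ZMod ℓ) → A) :
    ∑ x : OnePoint (ZMod ℓ), F x = F ∞ + ∑ j : ZMod ℓ, F (j : OnePoint (ZMod ℓ)) :=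
  Fintype.sum_option F

theorem sum_zmod_eq_sum_range_mul (G : ZMod ℓ → A) (t : ℤ) (ht : ¬ (ℓ : ℤ) ∣ t) :
    ∑ j : ZMod ℓ, G j = ∑ i ∈ Finset.range ℓ, G ((i : ZMod ℓ) * (t : ZMod ℓ)) := by
  have ht0 : (t : ZMod ℓ) ≠ 0 := fun h => ht ((ZMod.intCast_zmod_eq_zero_iff_dvd _ _).mp h)
  rw [sum_range_eq_sum_zmod (p := ℓ) (fun i => G ((i : ZMod ℓ) * (t : ZMod ℓ)))]
  rw [← Equiv.sum_comp (Equiv.mulRight₀ (t : ZMod ℓ) ht0) G]
  refine Finset.sum_congr rfl fun j _ => ?_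
  rw [ZMod.natCast_zmod_val]
  rfl

theorem perm_pow_apply (σ : Equiv.Perm (OnePoint (ZMod ℓ))) (X : ZMod ℓ → OnePoint (ZMod ℓ))
    (t : ZMod ℓ) (hσ : ∀ j, σ (X j) = X (j + t)) (i : ℕ) : (σ ^ i) (X 0) = X ((i : ZMod ℓ) * t) := by
  induction i with
  | zero => rw [pow_zero, Nat.cast_zero, zero_mul]; rfl
  | succ i ih =>
    rw [pow_succ', Equiv.Perm.mul_apply, ih, hσ]
    congr 1
    push_cast
    ring

end Sums

/-! ### conjugates of translations -/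

section Conj

variable {ℓ : ℕ} [Fact ℓ.Prime]

theorem redMatrix_conj_smul (g : SL(2, ℤ)) (s : ℤ) (x : OnePoint (ZMod ℓ)) :
    redMatrix ℓ g • (redMatrix ℓ (g * ModularGroup.T ^ s * g⁻¹) • x)
      = redMatrix ℓ (ModularGroup.T ^ s) • redMatrix ℓ g • x := by
  rw [redMatrix_smul_mul, redMatrix_smul_mul, redMatrix_smul_inv]

theorem cZ_conj_of_fixed (g : SL(2, ℤ)) (s s' : ℤ) (x : OnePoint (ZMod ℓ))
    (h1 : redMatrix ℓ (ModularGroup.T ^ s) • (redMatrix ℓ g • x) = redMatrix ℓ g • x)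
    (h2 : cZ (ModularGroup.T ^ s) (redMatrix ℓ g • x) = ModularGroup.T ^ s') :
    redMatrix ℓ (g * ModularGroup.T ^ s * g⁻¹) • x = x
      ∧ cZ (g * ModularGroup.T ^ s * g⁻¹) x = cZ g x * ModularGroup.T ^ s' * (cZ g x)⁻¹ := by
  constructor
  · rw [redMatrix_smul_mul, redMatrix_smul_mul, h1, redMatrix_inv_smul]
  · rw [cZ_mul, cZ_mul, redMatrix_smul_mul, h1, h2, cZ_inv]

end Conj

/-! ### the Hecke system on `Γ_H` -/

section Main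

variable {N : ℕ} {Δ : Type} [CommGroup Δ] (θ : (ZMod N)ˣ →* Δ) {ℓ : ℕ} [Fact ℓ.Prime]
  (hℓN : ¬ ℓ ∣ N)

theorem heckeSysH_σ (k : GammaH θ) (x : OnePoint (ZMod ℓ)) :
    (heckeSysH θ hℓN).σ k x = redMatrix ℓ (k : SL(2, ℤ)) • x := rfl

theorem coe_cD (g : Gamma0 N) (x : OnePoint (ZMod ℓ)) :
    ((cD hℓN g x : Gamma0 N) : SL(2, ℤ))
      = ((twG hℓN x : Gamma0 N) : SL(2, ℤ)) * cZ (g : SL(2, ℤ)) x
          * (((twG hℓN (redMatrix ℓ (g : SL(2, ℤ)) • x) : Gamma0 N) : SL(2, ℤ)))⁻¹ := by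
  have h1 : (((heckeSys hℓN).c g x : Gamma0 N) : SL(2, ℤ)) = cZ (g : SL(2, ℤ)) x :=
    coe_cT_eq_cZ hℓN g x
  show ((twG hℓN x : Gamma0 N) : SL(2, ℤ)) * (((heckeSys hℓN).c g x : Gamma0 N) : SL(2, ℤ))
      * (((twG hℓN ((heckeSys hℓN).σ g x) : Gamma0 N) : SL(2, ℤ)))⁻¹ = _
  rw [h1]
  rfl

theorem coe_heckeSysH_c (k : GammaH θ) (x : OnePoint (ZMod ℓ)) :
    (((heckeSysH θ hℓN).c k x : GammaH θ) : SL(2, ℤ))
      = ((twG hℓN x : Gamma0 N) : SL(2, ℤ)) * cZ (k : SL(2, ℤ)) x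
          * (((twG hℓN (redMatrix ℓ (k : SL(2, ℤ)) • x) : Gamma0 N) : SL(2, ℤ)))⁻¹ := by
  exact coe_cD hℓN (kerIncl (chi θ) k) x

variable {A : Type*} [AddCommGroup A] (ψ : Additive (GammaH θ) →+ A)

/-- the invariance hypothesis of (★★) -/
def ConjInv : Prop :=
  ∀ (d : Gamma0 N) (β : GammaH θ),
    ((β : SL(2, ℤ)) : Matrix (Fin 2) (Fin 2) ℤ).trace ^ 2 = 4 →
      ψ (Additive.ofMul (conjK (chi θ) d β)) = ψ (Additive.ofMul β)

variable {θ ψ}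

theorem psi_eq_of_conj (hψ : ConjInv θ ψ) (k : GammaH θ) (b δ : SL(2, ℤ)) (hδ : δ ∈ Gamma0 N)
    (hk : (k : SL(2, ℤ)) = δ * b * δ⁻¹)
    (hb : (b : Matrix (Fin 2) (Fin 2) ℤ).trace ^ 2 = 4) :
    ∃ hbK : b ∈ GammaH θ, ψ (Additive.ofMul k) = ψ (Additive.ofMul ⟨b, hbK⟩) := by
  set d : Gamma0 N := (⟨δ, hδ⟩ : Gamma0 N)⁻¹ with hd
  have hcoe : ((conjK (chi θ) d k : GammaH θ) : SL(2, ℤ)) = b := by
    have h1 : ((conjK (chi θ) d k : GammaH θ) : SL(2, ℤ))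
        = ((d : Gamma0 N) : SL(2, ℤ)) * (k : SL(2, ℤ)) * (((d : Gamma0 N) : SL(2, ℤ)))⁻¹ := rfl
    have hdcoe : ((d : Gamma0 N) : SL(2, ℤ)) = δ⁻¹ := rfl
    rw [h1, hk, hdcoe]
    group
  have htr : ((k : SL(2, ℤ)) : Matrix (Fin 2) (Fin 2) ℤ).trace ^ 2 = 4 := by
    rw [hk, trace_conj_SL]
    exact hb
  have hbK : b ∈ GammaH θ := by
    rw [← hcoe]
    exact (conjK (chi θ) d k).2
  refine ⟨hbK, ?_⟩
  rw [← hψ d k htr]
  congr 2
  exact Subtype.ext hcoe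

/-- the value of `ψ` on the cocycle at a fixed point -/
theorem psi_c_of_fixed (hN : Squarefree N) (hψ : ConjInv θ ψ) (k : GammaH θ)
    (x : OnePoint (ZMod ℓ)) (g : SL(2, ℤ)) (s : ℤ)
    (hfix : redMatrix ℓ (k : SL(2, ℤ)) • x = x)
    (hc : cZ (k : SL(2, ℤ)) x = cZ g x * ModularGroup.T ^ s * (cZ g x)⁻¹) :
    ∃ hb : g * ModularGroup.T ^ s * g⁻¹ ∈ GammaH θ,
      ψ (Additive.ofMul ((heckeSysH θ hℓN).c k x))
        = ψ (Additive.ofMul ⟨g * ModularGroup.T ^ s * g⁻¹, hb⟩) := by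
  obtain ⟨e, f, he, hf, hef⟩ := lower_left_rel g (cZ g x) x _ (cZ_rel g x)
  obtain ⟨m, hm⟩ := exists_T_conj_mem_Gamma0 hN hℓN g (cZ g x) e f he hf hef
  refine psi_eq_of_conj hψ _ _
    (((twG hℓN x : Gamma0 N) : SL(2, ℤ)) * (cZ g x * ModularGroup.T ^ m * g⁻¹))
    (mul_mem (twG hℓN x).2 hm) ?_ ?_
  · rw [coe_heckeSysH_c, hfix, hc]
    group
  · rw [trace_conj_T_zpow]
    norm_num

end Main

/-! ### the main theorem -/

section Final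

variable {N : ℕ} {Δ : Type} [CommGroup Δ] {θ : (ZMod N)ˣ →* Δ} {ℓ : ℕ} [Fact ℓ.Prime]
  (hℓN : ¬ ℓ ∣ N) {A : Type*} [AddCommGroup A] {ψ : Additive (GammaH θ) →+ A}

theorem TH_apply_eq_sum (k : GammaH θ) :
    TH θ A hℓN ψ (Additive.ofMul k)
      = ∑ x : OnePoint (ZMod ℓ), ψ (Additive.ofMul ((heckeSysH θ hℓN).c k x)) := rfl

/-- **the unipotent case** -/
theorem TH_apply_of_conj_T (hN : Squarefree N) (hψ : ConjInv θ ψ) (k : GammaH θ)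
    (g : SL(2, ℤ)) (t : ℤ) (hk : (k : SL(2, ℤ)) = g * ModularGroup.T ^ t * g⁻¹) :
    TH θ A hℓN ψ (Additive.ofMul k) = (ℓ + 1) • ψ (Additive.ofMul k) := by
  classical
  have hsum : TH θ A hℓN ψ (Additive.ofMul k)
      = ∑ y : OnePoint (ZMod ℓ),
          ψ (Additive.ofMul ((heckeSysH θ hℓN).c k (redMatrix ℓ g⁻¹ • y))) := by
    rw [TH_apply_eq_sum]
    exact (Equiv.sum_comp (MulAction.toPerm (redMatrix ℓ g⁻¹))
      (fun x : OnePoint (ZMod ℓ) => ψ (Additive.ofMul ((heckeSysH θ hℓN).c k x)))).symm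
  rw [hsum, sum_onePoint]
  -- the point over `∞`
  have hinf : ψ (Additive.ofMul ((heckeSysH θ hℓN).c k
      (redMatrix ℓ g⁻¹ • (∞ : OnePoint (ZMod ℓ))))) = ℓ • ψ (Additive.ofMul k) := by
    set x₀ := redMatrix ℓ g⁻¹ • (∞ : OnePoint (ZMod ℓ)) with hx₀
    have hgx : redMatrix ℓ g • x₀ = ∞ := redMatrix_smul_inv g ∞
    obtain ⟨h1, h2⟩ := cZ_T_infty (ℓ := ℓ) t
    obtain ⟨hfix, hc⟩ := cZ_conj_of_fixed g t (t * ℓ) x₀ (by rw [hgx]; exact h1)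
      (by rw [hgx]; exact h2)
    rw [← hk] at hfix hc
    obtain ⟨hb, hval⟩ := psi_c_of_fixed hℓN hN hψ k x₀ g (t * ℓ) hfix hc
    rw [hval]
    have hpow : (⟨g * ModularGroup.T ^ (t * ℓ) * g⁻¹, hb⟩ : GammaH θ) = k ^ ℓ := by
      apply Subtype.ext
      rw [Subgroup.coe_pow, hk, conj_pow, ← zpow_natCast, ← _root_.zpow_mul]
    rw [hpow, ofMul_pow, map_nsmul]
  rw [hinf]
  by_cases hdvd : (ℓ : ℤ) ∣ t
  · obtain ⟨t', ht'⟩ := hdvd
    have hfin : ∀ j : ZMod ℓ, ∃ hb : g * ModularGroup.T ^ t' * g⁻¹ ∈ GammaH θ,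
        ψ (Additive.ofMul ((heckeSysH θ hℓN).c k
          (redMatrix ℓ g⁻¹ • (j : OnePoint (ZMod ℓ)))))
          = ψ (Additive.ofMul ⟨g * ModularGroup.T ^ t' * g⁻¹, hb⟩) := by
      intro j
      set x := redMatrix ℓ g⁻¹ • (j : OnePoint (ZMod ℓ)) with hx
      have hgx : redMatrix ℓ g • x = j := redMatrix_smul_inv g _
      obtain ⟨h1, h2⟩ := cZ_T_coe_of_dvd (ℓ := ℓ) t' j
      rw [← ht'] at h1 h2
      obtain ⟨hfix, hc⟩ := cZ_conj_of_fixed g t t' x (by rw [hgx]; exact h1)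
        (by rw [hgx]; exact h2)
      rw [← hk] at hfix hc
      exact psi_c_of_fixed hℓN hN hψ k x g t' hfix hc
    obtain ⟨hb, -⟩ := hfin 0
    have hsumfin : ∑ j : ZMod ℓ, ψ (Additive.ofMul ((heckeSysH θ hℓN).c k
          (redMatrix ℓ g⁻¹ • (j : OnePoint (ZMod ℓ)))))
        = ℓ • ψ (Additive.ofMul (⟨g * ModularGroup.T ^ t' * g⁻¹, hb⟩ : GammaH θ)) := by
      have : ∀ j : ZMod ℓ, ψ (Additive.ofMul ((heckeSysH θ hℓN).c k
          (redMatrix ℓ g⁻¹ • (j : OnePoint (ZMod ℓ)))))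
          = ψ (Additive.ofMul (⟨g * ModularGroup.T ^ t' * g⁻¹, hb⟩ : GammaH θ)) := by
        intro j
        obtain ⟨hb', h⟩ := hfin j
        exact h
      rw [Finset.sum_congr rfl (fun j _ => this j), Finset.sum_const, Finset.card_univ, ZMod.card]
    have hpow : (⟨g * ModularGroup.T ^ t' * g⁻¹, hb⟩ : GammaH θ) ^ ℓ = k := by
      apply Subtype.ext
      rw [Subgroup.coe_pow, hk, ht']
      show (g * ModularGroup.T ^ t' * g⁻¹) ^ ℓ = _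
      rw [conj_pow, ← zpow_natCast, ← _root_.zpow_mul, mul_comm]
    have hroot : ℓ • ψ (Additive.ofMul (⟨g * ModularGroup.T ^ t' * g⁻¹, hb⟩ : GammaH θ))
        = ψ (Additive.ofMul k) := by
      rw [← map_nsmul, ← ofMul_pow, hpow]
    rw [hsumfin, hroot, add_nsmul, one_nsmul]
  · set x₁ := redMatrix ℓ g⁻¹ • (((0 : ZMod ℓ)) : OnePoint (ZMod ℓ)) with hx₁
    have hσ : ∀ j : ZMod ℓ, redMatrix ℓ (k : SL(2, ℤ)) • (redMatrix ℓ g⁻¹ • (j : OnePoint (ZMod ℓ)))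
        = redMatrix ℓ g⁻¹ • ((j + (t : ZMod ℓ) : ZMod ℓ) : OnePoint (ZMod ℓ)) := by
      intro j
      have h1 := redMatrix_conj_smul g t (redMatrix ℓ g⁻¹ • (j : OnePoint (ZMod ℓ)))
      rw [redMatrix_smul_inv, redMatrix_T_smul_coe, ← hk] at h1
      rw [← h1, redMatrix_inv_smul]
    have hpow : ∀ i : ℕ, ((((heckeSysH θ hℓN).σ k : Equiv.Perm (OnePoint (ZMod ℓ)))) ^ i) x₁
        = redMatrix ℓ g⁻¹ • ((((i : ZMod ℓ) * (t : ZMod ℓ) : ZMod ℓ)) : OnePoint (ZMod ℓ)) :=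
      perm_pow_apply ((heckeSysH θ hℓN).σ k)
        (fun j : ZMod ℓ => redMatrix ℓ g⁻¹ • (j : OnePoint (ZMod ℓ))) (t : ZMod ℓ) hσ
    rw [sum_zmod_eq_sum_range_mul _ t hdvd]
    have hcyc : ∑ i ∈ Finset.range ℓ, ψ (Additive.ofMul ((heckeSysH θ hℓN).c k
          (redMatrix ℓ g⁻¹ • ((((i : ZMod ℓ) * (t : ZMod ℓ) : ZMod ℓ)) : OnePoint (ZMod ℓ)))))
        = ψ (Additive.ofMul ((heckeSysH θ hℓN).c (k ^ ℓ) x₁)) := by
      rw [(heckeSysH θ hℓN).phi_c_pow ψ k ℓ x₁]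
      refine Finset.sum_congr rfl fun i _ => ?_
      exact congrArg (fun x : OnePoint (ZMod ℓ) =>
        ψ (Additive.ofMul ((heckeSysH θ hℓN).c k x))) (hpow i).symm
    rw [hcyc]
    have hkℓ : ((k ^ ℓ : GammaH θ) : SL(2, ℤ)) = g * ModularGroup.T ^ ((ℓ : ℤ) * t) * g⁻¹ := by
      rw [Subgroup.coe_pow, hk, conj_pow, ← zpow_natCast, ← _root_.zpow_mul, mul_comm]
    have hgx : redMatrix ℓ g • x₁ = (((0 : ZMod ℓ)) : OnePoint (ZMod ℓ)) :=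
      redMatrix_smul_inv g _
    obtain ⟨h1, h2⟩ := cZ_T_coe_of_dvd (ℓ := ℓ) t 0
    obtain ⟨hfix, hc⟩ := cZ_conj_of_fixed g ((ℓ : ℤ) * t) t x₁ (by rw [hgx]; exact h1)
      (by rw [hgx]; exact h2)
    rw [← hkℓ] at hfix hc
    obtain ⟨hb, hval⟩ := psi_c_of_fixed hℓN hN hψ (k ^ ℓ) x₁ g t hfix hc
    rw [hval]
    have hbk : (⟨g * ModularGroup.T ^ t * g⁻¹, hb⟩ : GammaH θ) = k := Subtype.ext hk.symm
    rw [hbk, add_nsmul, one_nsmul]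

/-- **the central element `-1`** -/
theorem TH_apply_of_neg_one (z : GammaH θ) (hz : (z : SL(2, ℤ)) = -1) :
    TH θ A hℓN ψ (Additive.ofMul z) = (ℓ + 1) • ψ (Additive.ofMul z) := by
  rw [TH_apply_eq_sum]
  have hc : ∀ x : OnePoint (ZMod ℓ), (heckeSysH θ hℓN).c z x = z := by
    intro x
    apply Subtype.ext
    rw [coe_heckeSysH_c, hz, (cZ_neg_one x).1, (cZ_neg_one x).2, mul_neg, mul_one, neg_mul,
      mul_inv_cancel]
  rw [Finset.sum_congr rfl (fun x _ => by rw [hc x]), Finset.sum_const, Finset.card_univ]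
  congr 1
  exact heckeSys_card hℓN

theorem neg_mem_Gamma0_of_mem {g : SL(2, ℤ)} (hg : g ∈ Gamma0 N) : -g ∈ Gamma0 N := by
  rw [Gamma0_mem] at hg ⊢
  rw [Matrix.SpecialLinearGroup.coe_neg, Matrix.neg_apply, Int.cast_neg, hg, neg_zero]

/-- **(★★)**: `T_ℓ` acts by `ℓ + 1` on the parabolic values of a homomorphism which is
`Γ₀(N)`-conjugation invariant on parabolic elements (`N` squarefree). -/
theorem TH_apply_of_parabolic (hN : Squarefree N) (hψ : ConjInv θ ψ) (γ : GammaH θ)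
    (hγ : ((γ : SL(2, ℤ)) : Matrix (Fin 2) (Fin 2) ℤ).trace ^ 2 = 4) :
    TH θ A hℓN ψ (Additive.ofMul γ) = (ℓ + 1) • ψ (Additive.ofMul γ) := by
  have htr : ((γ : SL(2, ℤ)) : Matrix (Fin 2) (Fin 2) ℤ).trace = 2
      ∨ ((γ : SL(2, ℤ)) : Matrix (Fin 2) (Fin 2) ℤ).trace = -2 := by
    have h0 : (((γ : SL(2, ℤ)) : Matrix (Fin 2) (Fin 2) ℤ).trace - 2)
        * (((γ : SL(2, ℤ)) : Matrix (Fin 2) (Fin 2) ℤ).trace + 2) = 0 := by
      linear_combination hγ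
    rcases mul_eq_zero.mp h0 with h | h
    · left; linarith
    · right; linarith
  rcases htr with h2 | hm2
  · obtain ⟨g, t, hgt⟩ := exists_eq_conj_T_zpow (γ : SL(2, ℤ)) h2
    exact TH_apply_of_conj_T hℓN hN hψ γ g t hgt
  · have hγ0 : (γ : SL(2, ℤ)) ∈ Gamma0 N := GammaH_le θ γ.2
    have hu0 : -(γ : SL(2, ℤ)) ∈ Gamma0 N := neg_mem_Gamma0_of_mem hγ0
    have hutr : ((-(γ : SL(2, ℤ)) : SL(2, ℤ)) : Matrix (Fin 2) (Fin 2) ℤ).trace = 2 := by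
      rw [Matrix.SpecialLinearGroup.coe_neg, Matrix.trace_neg, hm2]
      norm_num
    have hd := cast_apply_one_one_of_trace_eq_two hN _ hutr hu0
    have huK : -(γ : SL(2, ℤ)) ∈ GammaH θ := by
      rw [mem_GammaH_iff]
      refine ⟨hu0, ?_⟩
      have : dUnits N ⟨-(γ : SL(2, ℤ)), hu0⟩ = 1 := by
        apply Units.ext
        rw [coe_dUnits]
        exact hd
      rw [this, map_one]
    have hzK : (-1 : SL(2, ℤ)) ∈ GammaH θ := by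
      have h1 : (-1 : SL(2, ℤ)) = -(γ : SL(2, ℤ)) * (γ : SL(2, ℤ))⁻¹ := by
        rw [neg_mul, mul_inv_cancel]
      rw [h1]
      exact mul_mem huK (inv_mem γ.2)
    set z : GammaH θ := ⟨-1, hzK⟩ with hz
    set u : GammaH θ := ⟨-(γ : SL(2, ℤ)), huK⟩ with hu
    have hγzu : γ = z * u := by
      apply Subtype.ext
      show (γ : SL(2, ℤ)) = (-1 : SL(2, ℤ)) * -(γ : SL(2, ℤ))
      rw [neg_mul_neg, one_mul]
    obtain ⟨g, t, hgt⟩ := exists_eq_conj_T_zpow (-(γ : SL(2, ℤ))) hutr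
    have e1 := TH_apply_of_neg_one hℓN (ψ := ψ) z rfl
    have e2 := TH_apply_of_conj_T hℓN hN hψ u g t hgt
    rw [hγzu, ofMul_mul, map_add, map_add, e1, e2, smul_add]

/-- **(★★), consumer form** (hypothesis spelled out, as in the request of part A). -/
theorem TH_apply_of_parabolic' (hN : Squarefree N)
    (hψ : ∀ (d : Gamma0 N) (β : GammaH θ),
      ((β : SL(2, ℤ)) : Matrix (Fin 2) (Fin 2) ℤ).trace ^ 2 = 4 →
        ψ (Additive.ofMul (conjK (chi θ) d β)) = ψ (Additive.ofMul β))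
    (γ : GammaH θ) (hγ : ((γ : SL(2, ℤ)) : Matrix (Fin 2) (Fin 2) ℤ).trace ^ 2 = 4) :
    TH θ A hℓN ψ (Additive.ofMul γ) = (ℓ + 1) • ψ (Additive.ofMul γ) :=
  TH_apply_of_parabolic hℓN hN hψ γ hγ

end Final

end Fermat.Agent.GB.B3.Boundary.Mat
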