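/-
GATE-B leaf GB-B3-BOUNDARY part B (helper11), utility: squarefreeness of the Taylor–Wiles levels
`N_Q = M * ∏ r_i` (`M` squarefree, `r_i` pairwise distinct primes not dividing `M`) — the only
hypothesis of `Mat.starStar_of_squarefree` / `Mat.bigReal_mem_parabolicHoms_of_squarefree`.
Mathlib only.
-/
import Mathlib

set_option autoImplicit false

namespace Fermat.Agent.GB.B3.Boundary.Mat

theorem squarefree_mul_prime {M r : ℕ} (hM : Squarefree M) (hr : r.Prime) (hrM : ¬ r ∣ M) :
    Squarefree (M * r) := by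
  rw [Nat.squarefree_mul_iff]
  exact ⟨((Nat.Prime.coprime_iff_not_dvd hr).mpr hrM).symm, hM, hr.squarefree⟩

/-- `M * ∏_{i ∈ s} r i` is squarefree -/
theorem squarefree_mul_prod {M : ℕ} (hM : Squarefree M) {ι : Type*} (s : Finset ι) (r : ι → ℕ)
    (hr : ∀ i ∈ s, (r i).Prime) (hinj : Set.InjOn r (s : Set ι)) (hrM : ∀ i ∈ s, ¬ r i ∣ M) :
    Squarefree (M * ∏ i ∈ s, r i) := by
  classical
  induction s using Finset.induction_on with
  | empty => simpa using hM
  | insert a s ha ih =>
    rw [Finset.prod_insert ha, mul_left_comm, mul_comm (r a)]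
    have hs : Squarefree (M * ∏ i ∈ s, r i) :=
      ih (fun i hi => hr i (Finset.mem_insert_of_mem hi))
        (hinj.mono (by simp [Finset.coe_insert]))
        (fun i hi => hrM i (Finset.mem_insert_of_mem hi))
    refine squarefree_mul_prime hs (hr a (Finset.mem_insert_self a s)) ?_
    intro hdvd
    have hpa := hr a (Finset.mem_insert_self a s)
    rcases (Nat.Prime.dvd_mul hpa).mp hdvd with h | h
    · exact hrM a (Finset.mem_insert_self a s) h
    · obtain ⟨i, hi, hai⟩ := (Prime.dvd_finsetProd_iff hpa.prime _).mp h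
      have hpi := hr i (Finset.mem_insert_of_mem hi)
      have heq : r a = r i := (Nat.prime_dvd_prime_iff_eq hpa hpi).mp hai
      have : a = i := hinj (Finset.mem_coe.mpr (Finset.mem_insert_self a s))
        (Finset.mem_coe.mpr (Finset.mem_insert_of_mem hi)) heq
      exact ha (this ▸ hi)

/-- the `Fin k`-indexed form (Taylor–Wiles sets `qv : Fin k → ℕ`) -/
theorem squarefree_mul_prod_fin {M : ℕ} (hM : Squarefree M) {k : ℕ} (r : Fin k → ℕ)
    (hr : ∀ i, (r i).Prime) (hinj : Function.Injective r) (hrM : ∀ i, ¬ r i ∣ M) :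
    Squarefree (M * ∏ i, r i) :=
  squarefree_mul_prod hM Finset.univ r (fun i _ => hr i) (hinj.injOn) (fun i _ => hrM i)

/-- the `ℕ`-indexed form of `PrimeData` (`r : ℕ → ℕ`, indices `< k`) -/
theorem squarefree_mul_prod_range {M : ℕ} (hM : Squarefree M) {k : ℕ} (r : ℕ → ℕ)
    (hr : ∀ i, i < k → (r i).Prime) (hinj : ∀ i j, i < k → j < k → i ≠ j → r i ≠ r j)
    (hrM : ∀ i, i < k → ¬ r i ∣ M) :
    Squarefree (M * ∏ i ∈ Finset.range k, r i) := by
  refine squarefree_mul_prod hM (Finset.range k) r (fun i hi => hr i (Finset.mem_range.mp hi)) ?_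
    (fun i hi => hrM i (Finset.mem_range.mp hi))
  intro i hi j hj hij
  by_contra hne
  exact hinj i j (Finset.mem_range.mp (Finset.mem_coe.mp hi))
    (Finset.mem_range.mp (Finset.mem_coe.mp hj)) hne hij

end Fermat.Agent.GB.B3.Boundary.Mat
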