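/-
GATE-B leaf GB-B3-BOUNDARY part B (helper11), file 1/3: the level one Hecke cocycle.

For EVERY `g : SL(2, ℤ)` and `x ∈ P¹(𝔽_ℓ)` there is a unique `cZ g x : SL(2, ℤ)` with
`heckeRep ℓ x * g = cZ g x * heckeRep ℓ (x · g)` (prelude `heckeRep_mul` at level `1`, uniqueness
from `heckeRep_injective_mod`).  We record the cocycle identities, the comparison with the
level `N` cocycle `cT`, the value at `-1`, the explicit values at the translations `T ^ s`, and
the relation between the lower left entries of `g` and `cZ g x`.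
-/
import Mathlib
import Fermat.Agent.GM.B.Distinct
import Fermat.Agent.S16_helper49.HeckeHom

set_option autoImplicit false

open scoped MatrixGroups
open CongruenceSubgroup Matrix Matrix.SpecialLinearGroup
open P2MW.S_ModularForm_heckeT_slash_eq_self_of_mem_Gamma0.ModularForm.HeckeSlashInvariance
open P2MW.S_ModularForm_heckeT_slash_eq_self_of_mem_Gamma0.ModularForm
open Fermat.Agent.S16_helper49 Fermat.Agent.GM.B
open scoped OnePoint

namespace Fermat.Agent.GB.B3.Boundary.Mat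

variable {ℓ : ℕ} [Fact ℓ.Prime]

theorem prime_not_dvd_one : ¬ ℓ ∣ 1 := (Fact.out : ℓ.Prime).one_lt.ne' ∘ Nat.dvd_one.mp

theorem natOne_dvd (a : ℤ) : ((1 : ℕ) : ℤ) ∣ a := by
  rw [Nat.cast_one]
  exact one_dvd a

/-- **the level one Hecke cocycle** -/
noncomputable def cZ (g : SL(2, ℤ)) (x : OnePoint (ZMod ℓ)) : SL(2, ℤ) :=
  (heckeRep_mul (N := 1) (p := ℓ) prime_not_dvd_one g (natOne_dvd _) x).choose

theorem cZ_rel (g : SL(2, ℤ)) (x : OnePoint (ZMod ℓ)) :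
    heckeRep ℓ x * mapGL ℝ g = mapGL ℝ (cZ g x) * heckeRep ℓ (redMatrix ℓ g • x) :=
  (heckeRep_mul (N := 1) (p := ℓ) prime_not_dvd_one g (natOne_dvd _) x).choose_spec.2

/-- **uniqueness**: the relation determines the permutation and the cocycle -/
theorem cZ_unique (g c : SL(2, ℤ)) (x y : OnePoint (ZMod ℓ))
    (h : heckeRep ℓ x * mapGL ℝ g = mapGL ℝ c * heckeRep ℓ y) :
    redMatrix ℓ g • x = y ∧ cZ g x = c := by
  have h1 := cZ_rel g x
  rw [h] at h1
  have h2 : heckeRep ℓ y = embR (c⁻¹ * cZ g x) * heckeRep ℓ (redMatrix ℓ g • x) := by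
    show heckeRep ℓ y = mapGL ℝ (c⁻¹ * cZ g x) * heckeRep ℓ (redMatrix ℓ g • x)
    rw [map_mul, mul_assoc, ← h1, ← mul_assoc, ← map_mul, inv_mul_cancel, map_one, one_mul]
  have hy : y = redMatrix ℓ g • x := heckeRep_injective_mod y _ _ h2
  subst hy
  refine ⟨rfl, ?_⟩
  have h3 := mul_right_cancel h1
  exact (mapGL_injective (R := ℤ) (S := ℝ) h3).symm

theorem redMatrix_smul_mul (g h : SL(2, ℤ)) (x : OnePoint (ZMod ℓ)) :
    redMatrix ℓ (g * h) • x = redMatrix ℓ h • redMatrix ℓ g • x := by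
  rw [redMatrix_mul, mul_smul]

theorem redMatrix_one_smul (x : OnePoint (ZMod ℓ)) : redMatrix ℓ (1 : SL(2, ℤ)) • x = x := by
  rw [redMatrix_one, one_smul]

theorem redMatrix_inv_smul (g : SL(2, ℤ)) (x : OnePoint (ZMod ℓ)) :
    redMatrix ℓ g⁻¹ • redMatrix ℓ g • x = x := by
  rw [← redMatrix_smul_mul, mul_inv_cancel, redMatrix_one_smul]

theorem redMatrix_smul_inv (g : SL(2, ℤ)) (x : OnePoint (ZMod ℓ)) :
    redMatrix ℓ g • redMatrix ℓ g⁻¹ • x = x := by
  rw [← redMatrix_smul_mul, inv_mul_cancel, redMatrix_one_smul]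

/-- the cocycle identity -/
theorem cZ_mul (g h : SL(2, ℤ)) (x : OnePoint (ZMod ℓ)) :
    cZ (g * h) x = cZ g x * cZ h (redMatrix ℓ g • x) := by
  refine (cZ_unique (g * h) _ x (redMatrix ℓ h • redMatrix ℓ g • x) ?_).2
  rw [map_mul, ← mul_assoc, cZ_rel g x, mul_assoc, cZ_rel h, ← mul_assoc, ← map_mul]

theorem cZ_one (x : OnePoint (ZMod ℓ)) : cZ (1 : SL(2, ℤ)) x = 1 := by
  refine (cZ_unique 1 1 x x ?_).2
  rw [map_one, mul_one, one_mul]

theorem cZ_inv (g : SL(2, ℤ)) (x : OnePoint (ZMod ℓ)) :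
    cZ g⁻¹ (redMatrix ℓ g • x) = (cZ g x)⁻¹ := by
  have h := cZ_mul g g⁻¹ x
  rw [mul_inv_cancel, cZ_one] at h
  exact eq_inv_of_mul_eq_one_right h.symm

/-- comparison with the level `N` cocycle -/
theorem coe_cT_eq_cZ {N : ℕ} (hℓN : ¬ ℓ ∣ N) (g : Gamma0 N) (x : OnePoint (ZMod ℓ)) :
    ((cT hℓN g x : Gamma0 N) : SL(2, ℤ)) = cZ (g : SL(2, ℤ)) x :=
  ((cZ_unique (g : SL(2, ℤ)) _ x _ (cT_rel hℓN g x)).2).symm

/-! ### the central element `-1` -/

theorem cZ_neg_one (x : OnePoint (ZMod ℓ)) :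
    redMatrix ℓ (-1 : SL(2, ℤ)) • x = x ∧ cZ (-1 : SL(2, ℤ)) x = -1 := by
  refine cZ_unique (-1) (-1) x x ?_
  apply Matrix.GeneralLinearGroup.ext
  intro i j
  rw [Matrix.GeneralLinearGroup.coe_mul, Matrix.GeneralLinearGroup.coe_mul, Matrix.mul_apply,
    Matrix.mul_apply, Fin.sum_univ_two, Fin.sum_univ_two]
  simp only [mapGL_apply]
  fin_cases i <;> fin_cases j <;> simp

/-! ### the translations -/

theorem cZ_T_infty (s : ℤ) :
    redMatrix ℓ (ModularGroup.T ^ s) • (∞ : OnePoint (ZMod ℓ)) = ∞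
      ∧ cZ (ModularGroup.T ^ s) (∞ : OnePoint (ZMod ℓ)) = ModularGroup.T ^ (s * ℓ) := by
  have hℓ : ℓ ≠ 0 := (Fact.out : ℓ.Prime).ne_zero
  refine cZ_unique _ _ _ _ ?_
  apply Matrix.GeneralLinearGroup.ext
  intro i j
  rw [Matrix.GeneralLinearGroup.coe_mul, Matrix.GeneralLinearGroup.coe_mul, Matrix.mul_apply,
    Matrix.mul_apply, Fin.sum_univ_two, Fin.sum_univ_two]
  simp only [mapGL_apply, ModularGroup.coe_T_zpow, heckeRep_infty, ModularForm.val_heckeDiagMatrix hℓ]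
  fin_cases i <;> fin_cases j <;> (simp; try ring)

theorem cZ_T_coe (s : ℤ) (j j' : ZMod ℓ) (e : ℤ)
    (he : (j.val : ℤ) + s = (j'.val : ℤ) + e * ℓ) :
    redMatrix ℓ (ModularGroup.T ^ s) • (j : OnePoint (ZMod ℓ)) = (j' : OnePoint (ZMod ℓ))
      ∧ cZ (ModularGroup.T ^ s) (j : OnePoint (ZMod ℓ)) = ModularGroup.T ^ e := by
  have hℓ : ℓ ≠ 0 := (Fact.out : ℓ.Prime).ne_zero
  refine cZ_unique _ _ _ _ ?_
  have he' : ((j.val : ℤ) : ℝ) + (s : ℝ) = ((j'.val : ℤ) : ℝ) + (e : ℝ) * (ℓ : ℝ) := by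
    exact_mod_cast he
  apply Matrix.GeneralLinearGroup.ext
  intro i k
  rw [Matrix.GeneralLinearGroup.coe_mul, Matrix.GeneralLinearGroup.coe_mul, Matrix.mul_apply,
    Matrix.mul_apply, Fin.sum_univ_two, Fin.sum_univ_two]
  simp only [mapGL_apply, ModularGroup.coe_T_zpow, heckeRep_coe, ModularForm.val_heckeMatrix hℓ]
  fin_cases i <;> fin_cases k <;> simp [-ZMod.natCast_val]
  push_cast at he'
  linarith

/-- translations by multiples of `ℓ` fix the finite points -/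
theorem cZ_T_coe_of_dvd (s' : ℤ) (j : ZMod ℓ) :
    redMatrix ℓ (ModularGroup.T ^ (ℓ * s' : ℤ)) • (j : OnePoint (ZMod ℓ)) = (j : OnePoint (ZMod ℓ))
      ∧ cZ (ModularGroup.T ^ (ℓ * s' : ℤ)) (j : OnePoint (ZMod ℓ)) = ModularGroup.T ^ s' :=
  cZ_T_coe _ j j s' (by ring)

/-- translations act by `j ↦ j + s` on the finite points -/
theorem redMatrix_T_smul_coe (s : ℤ) (j : ZMod ℓ) :
    redMatrix ℓ (ModularGroup.T ^ s) • (j : OnePoint (ZMod ℓ))
      = ((j + (s : ZMod ℓ) : ZMod ℓ) : OnePoint (ZMod ℓ)) := by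
  have hdvd : (ℓ : ℤ) ∣ (j.val : ℤ) + s - ((j + (s : ZMod ℓ) : ZMod ℓ).val : ℤ) := by
    rw [← ZMod.intCast_zmod_eq_zero_iff_dvd]
    push_cast
    rw [ZMod.natCast_zmod_val, ZMod.natCast_zmod_val]
    ring
  obtain ⟨e, he⟩ := hdvd
  exact (cZ_T_coe s j (j + (s : ZMod ℓ)) e (by linarith [he, mul_comm (ℓ : ℤ) e])).1

/-! ### lower left entries -/

/-- the lower left entries of `g` and `g'` in a relation `α_x g = g' α_y` agree up to factors
in `{1, ℓ}` -/
theorem lower_left_rel (g g' : SL(2, ℤ)) (x y : OnePoint (ZMod ℓ))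
    (h : heckeRep ℓ x * mapGL ℝ g = mapGL ℝ g' * heckeRep ℓ y) :
    ∃ e f : ℤ, (e = 1 ∨ e = ℓ) ∧ (f = 1 ∨ f = ℓ) ∧ e * g 1 0 = f * g' 1 0 := by
  have hℓ : ℓ ≠ 0 := (Fact.out : ℓ.Prime).ne_zero
  have h10 := congrArg (fun M : GL (Fin 2) ℝ => (M : Matrix (Fin 2) (Fin 2) ℝ) 1 0) h
  simp only [Matrix.GeneralLinearGroup.coe_mul, Matrix.mul_apply, Fin.sum_univ_two,
    mapGL_apply] at h10
  induction x using OnePoint.rec with
  | infty =>
    induction y using OnePoint.rec with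
    | infty =>
      refine ⟨1, ℓ, Or.inl rfl, Or.inr rfl, ?_⟩
      simp only [heckeRep_infty, ModularForm.val_heckeDiagMatrix hℓ] at h10
      norm_num at h10
      have : ((1 * g 1 0 : ℤ) : ℝ) = ((ℓ * g' 1 0 : ℤ) : ℝ) := by push_cast; linarith
      exact_mod_cast this
    | coe k =>
      refine ⟨1, 1, Or.inl rfl, Or.inl rfl, ?_⟩
      simp only [heckeRep_infty, heckeRep_coe, ModularForm.val_heckeDiagMatrix hℓ,
        ModularForm.val_heckeMatrix hℓ] at h10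
      norm_num at h10
      rw [one_mul, one_mul]
      exact_mod_cast h10
  | coe j =>
    induction y using OnePoint.rec with
    | infty =>
      refine ⟨1, 1, Or.inl rfl, Or.inl rfl, ?_⟩
      simp only [heckeRep_infty, heckeRep_coe, ModularForm.val_heckeDiagMatrix hℓ,
        ModularForm.val_heckeMatrix hℓ] at h10
      norm_num at h10
      have hℓR : (ℓ : ℝ) ≠ 0 := by exact_mod_cast hℓ
      have : ((1 * g 1 0 : ℤ) : ℝ) = ((1 * g' 1 0 : ℤ) : ℝ) := by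
        push_cast
        have h2 : (ℓ : ℝ) * ((g 1 0 : ℤ) : ℝ) = (ℓ : ℝ) * ((g' 1 0 : ℤ) : ℝ) := by linarith
        have := mul_left_cancel₀ hℓR h2
        linarith
      exact_mod_cast this
    | coe k =>
      refine ⟨ℓ, 1, Or.inr rfl, Or.inl rfl, ?_⟩
      simp only [heckeRep_coe, ModularForm.val_heckeMatrix hℓ] at h10
      norm_num at h10
      have : ((ℓ * g 1 0 : ℤ) : ℝ) = ((1 * g' 1 0 : ℤ) : ℝ) := by push_cast; linarith
      exact_mod_cast this

end Fermat.Agent.GB.B3.Boundary.Mat
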