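/-
GATE-B / GB-B3-BOUNDARY (L8), sub-lemma (M2) of helper74 5977 / helper53 6018 + 6050 (helper47):
`Γ₀(N)`, `N` squarefree, is transitive on the primitive vectors `(a, c)` with a given `gcd(c, N)`.
Mathlib only.

* `transT m` : the translation `[[1, m], [0, 1]] ∈ SL(2, ℤ)`;
* `exists_transT_conj_mem_Gamma0` (CONJ) : `gcd(g₁₀, N) = gcd(g'₁₀, N)` ⟹ `∃ m, g' T^m g⁻¹ ∈ Γ₀(N)`;
* `exists_Gamma0_smul_eq` (M2, entry form) and `exists_Gamma0_mulVec_eq` (M2, `mulVec` form);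
* `gcd_eq_of_mul_sub_dvd` : `g c' ≡ u c mod N`, `g`, `u` prime to `N` ⟹ `gcd(c, N) = gcd(c', N)`.
-/
import Mathlib

set_option autoImplicit false

open scoped MatrixGroups
open CongruenceSubgroup Matrix

namespace Fermat.Agent.GB.B3.Boundary

/-- completion of a primitive vector to a matrix of `SL(2, ℤ)` (first column `(a, c)`). -/
theorem exists_SL2_col {a c : ℤ} (h : IsCoprime a c) :
    ∃ g : SL(2, ℤ), g 0 0 = a ∧ g 1 0 = c := by
  obtain ⟨u, v, huv⟩ := h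
  refine ⟨⟨!![a, -v; c, u], ?_⟩, rfl, rfl⟩
  rw [Matrix.det_fin_two_of]
  linear_combination huv

/-- `N = e f` with `e`, `f` coprime, `gcd(y, N) = e` ⟹ `y` is prime to `f`. -/
theorem isCoprime_of_gcd_eq {e f : ℕ} (hcop : Nat.Coprime e f) {y : ℤ}
    (hy : Int.gcd y ((e * f : ℕ) : ℤ) = e) : IsCoprime y (f : ℤ) := by
  rw [Int.isCoprime_iff_gcd_eq_one]
  have h1 : Int.gcd y (f : ℤ) ∣ e := by
    rw [← hy]
    apply Int.gcd_dvd_gcd_of_dvd_right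
    exact Int.natCast_dvd_natCast.mpr (Dvd.intro_left e rfl)
  have h2 : Int.gcd y (f : ℤ) ∣ f := Int.natCast_dvd_natCast.mp (Int.gcd_dvd_right y (f : ℤ))
  exact Nat.eq_one_of_dvd_coprimes hcop h1 h2

/-- the arithmetic heart: `N` squarefree, `gcd(c, N) = gcd(c', N)` ⟹ `x - m c c' ≡ 0 mod N` is
solvable in `m` whenever `gcd(c, N) ∣ x`. -/
theorem exists_mul_sub_dvd {N : ℕ} (hN : Squarefree N) {c c' : ℤ}
    (hg : Int.gcd c N = Int.gcd c' N) (x : ℤ) (hx : (Int.gcd c N : ℤ) ∣ x) :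
    ∃ m : ℤ, (N : ℤ) ∣ x - m * (c * c') := by
  obtain ⟨f, hf⟩ : Int.gcd c N ∣ N := Int.natCast_dvd_natCast.mp (Int.gcd_dvd_right c (N : ℤ))
  set e : ℕ := Int.gcd c N with he
  have hcop : Nat.Coprime e f := by
    rw [hf] at hN
    exact (Nat.squarefree_mul_iff.mp hN).1
  have hc : IsCoprime c (f : ℤ) := isCoprime_of_gcd_eq hcop (by rw [← hf])
  have hc' : IsCoprime c' (f : ℤ) := isCoprime_of_gcd_eq hcop (by rw [← hf, ← hg])
  have hcc : IsCoprime (c * c') (f : ℤ) := hc.mul_left hc'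
  obtain ⟨u, v, huv⟩ := hcc
  -- `m := x u`: `x - x u c c' = x v f`
  refine ⟨x * u, ?_⟩
  have hEF : IsCoprime (e : ℤ) (f : ℤ) := Nat.isCoprime_iff_coprime.mpr hcop
  have hNef : (N : ℤ) = (e : ℤ) * (f : ℤ) := by rw [hf]; push_cast; ring
  rw [hNef]
  refine hEF.mul_dvd ?_ ?_
  · have h1 : (e : ℤ) ∣ c := Int.gcd_dvd_left c (N : ℤ)
    exact dvd_sub hx (Dvd.dvd.mul_left (Dvd.dvd.mul_right h1 c') (x * u))
  · refine ⟨x * v, ?_⟩
    linear_combination (-x) * huv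

/-- the translation `[[1, m], [0, 1]]`. -/
def transT (m : ℤ) : SL(2, ℤ) := ⟨!![1, m; 0, 1], by rw [Matrix.det_fin_two_of]; ring⟩

theorem transT_apply (m : ℤ) (i j : Fin 2) :
    (transT m : Matrix (Fin 2) (Fin 2) ℤ) i j = (!![1, m; 0, 1] : Matrix (Fin 2) (Fin 2) ℤ) i j :=
  rfl

/-- entries of `g' * T^m * g⁻¹`. -/
theorem conj_transT_apply (g g' : SL(2, ℤ)) (m : ℤ) (i j : Fin 2) :
    (g' * transT m * g⁻¹ : SL(2, ℤ)) i j =
      (g' i 0 * (!![1, m; 0, 1] : Matrix (Fin 2) (Fin 2) ℤ) 0 0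
          + g' i 1 * (!![1, m; 0, 1] : Matrix (Fin 2) (Fin 2) ℤ) 1 0)
          * (!![g 1 1, -g 0 1; -g 1 0, g 0 0] : Matrix (Fin 2) (Fin 2) ℤ) 0 j
        + (g' i 0 * (!![1, m; 0, 1] : Matrix (Fin 2) (Fin 2) ℤ) 0 1
          + g' i 1 * (!![1, m; 0, 1] : Matrix (Fin 2) (Fin 2) ℤ) 1 1)
          * (!![g 1 1, -g 0 1; -g 1 0, g 0 0] : Matrix (Fin 2) (Fin 2) ℤ) 1 j := by
  simp only [Matrix.SpecialLinearGroup.coe_mul, Matrix.SpecialLinearGroup.coe_inv,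
    Matrix.adjugate_fin_two, Matrix.mul_apply, Fin.sum_univ_two, transT_apply]

/-- lower left entry of `g' * T^m * g⁻¹`: `c' d - d' c - m c c'`. -/
theorem conj_transT_one_zero (g g' : SL(2, ℤ)) (m : ℤ) :
    (g' * transT m * g⁻¹ : SL(2, ℤ)) 1 0
      = g' 1 0 * g 1 1 - g' 1 1 * g 1 0 - m * (g 1 0 * g' 1 0) := by
  rw [conj_transT_apply]
  simp only [Matrix.of_apply, Matrix.cons_val', Matrix.cons_val_zero, Matrix.cons_val_one,
    Matrix.cons_val_fin_one]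
  ring

/-- **(CONJ)** `N` squarefree, `gcd(g₁₀, N) = gcd(g'₁₀, N)` ⟹ `g' T^m g⁻¹ ∈ Γ₀(N)` for some `m`. -/
theorem exists_transT_conj_mem_Gamma0 {N : ℕ} (hN : Squarefree N) (g g' : SL(2, ℤ))
    (h : Int.gcd (g 1 0) N = Int.gcd (g' 1 0) N) : ∃ m : ℤ, g' * transT m * g⁻¹ ∈ Gamma0 N := by
  have hx : (Int.gcd (g 1 0) N : ℤ) ∣ g' 1 0 * g 1 1 - g' 1 1 * g 1 0 := by
    have h1 : (Int.gcd (g 1 0) N : ℤ) ∣ g 1 0 := Int.gcd_dvd_left (g 1 0) (N : ℤ)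
    have h2 : (Int.gcd (g 1 0) N : ℤ) ∣ g' 1 0 := by
      rw [h]; exact Int.gcd_dvd_left (g' 1 0) (N : ℤ)
    exact dvd_sub (Dvd.dvd.mul_right h2 _) (Dvd.dvd.mul_left h1 _)
  obtain ⟨m, hm⟩ := exists_mul_sub_dvd hN h _ hx
  refine ⟨m, ?_⟩
  rw [Gamma0_mem, ZMod.intCast_zmod_eq_zero_iff_dvd, conj_transT_one_zero]
  exact hm

/-- first column of `g' * T^m * g⁻¹` applied to the first column of `g`. -/
theorem conj_transT_col (g g' : SL(2, ℤ)) (m : ℤ) (i : Fin 2) :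
    (g' * transT m * g⁻¹ : SL(2, ℤ)) i 0 * g 0 0 + (g' * transT m * g⁻¹ : SL(2, ℤ)) i 1 * g 1 0
      = g' i 0 := by
  have hdet := Matrix.SpecialLinearGroup.det_coe g
  rw [Matrix.det_fin_two] at hdet
  rw [conj_transT_apply, conj_transT_apply]
  simp only [Matrix.of_apply, Matrix.cons_val', Matrix.cons_val_zero, Matrix.cons_val_one,
    Matrix.cons_val_fin_one]
  linear_combination (g' i 0) * hdet

/-- **(M2)**, entry form: `Γ₀(N)`, `N` squarefree, is transitive on primitive vectors with a given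
`gcd(c, N)`. -/
theorem exists_Gamma0_smul_eq {N : ℕ} (hN : Squarefree N) {a c a' c' : ℤ}
    (h : IsCoprime a c) (h' : IsCoprime a' c') (hg : Int.gcd c N = Int.gcd c' N) :
    ∃ δ : SL(2, ℤ), δ ∈ Gamma0 N ∧ δ 0 0 * a + δ 0 1 * c = a' ∧ δ 1 0 * a + δ 1 1 * c = c' := by
  obtain ⟨g₁, h00, h10⟩ := exists_SL2_col h
  obtain ⟨g₂, k00, k10⟩ := exists_SL2_col h'
  obtain ⟨m, hm⟩ := exists_transT_conj_mem_Gamma0 hN g₁ g₂ (by rw [h10, k10]; exact hg)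
  refine ⟨g₂ * transT m * g₁⁻¹, hm, ?_, ?_⟩
  · rw [← h00, ← h10, ← k00]
    exact conj_transT_col g₁ g₂ m 0
  · rw [← h00, ← h10, ← k10]
    exact conj_transT_col g₁ g₂ m 1

/-- **(M2)**, `mulVec` form. -/
theorem exists_Gamma0_mulVec_eq {N : ℕ} (hN : Squarefree N) {v v' : Fin 2 → ℤ}
    (h : IsCoprime (v 0) (v 1)) (h' : IsCoprime (v' 0) (v' 1))
    (hg : Int.gcd (v 1) N = Int.gcd (v' 1) N) :
    ∃ δ : SL(2, ℤ), δ ∈ Gamma0 N ∧ (δ : Matrix (Fin 2) (Fin 2) ℤ).mulVec v = v' := by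
  obtain ⟨δ, hδ, e0, e1⟩ := exists_Gamma0_smul_eq hN h h' hg
  refine ⟨δ, hδ, ?_⟩
  funext i
  fin_cases i
  · simpa [Matrix.mulVec, dotProduct, Fin.sum_univ_two] using e0
  · simpa [Matrix.mulVec, dotProduct, Fin.sum_univ_two] using e1

/-- one half of `gcd_eq_of_mul_sub_dvd`. -/
theorem gcd_dvd_gcd_of_mul_sub_dvd {N : ℕ} {c c' g u : ℤ} (hgN : IsCoprime g (N : ℤ))
    (h : (N : ℤ) ∣ g * c' - u * c) : Int.gcd c N ∣ Int.gcd c' N := by
  have h1 : (Int.gcd c N : ℤ) ∣ c := Int.gcd_dvd_left c (N : ℤ)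
  have h2 : (Int.gcd c N : ℤ) ∣ (N : ℤ) := Int.gcd_dvd_right c (N : ℤ)
  have h3 : (Int.gcd c N : ℤ) ∣ g * c' := by
    have : g * c' = (g * c' - u * c) + u * c := by ring
    rw [this]
    exact dvd_add (h2.trans h) (Dvd.dvd.mul_left h1 u)
  have hcop : IsCoprime (Int.gcd c N : ℤ) g := (hgN.symm.of_isCoprime_of_dvd_left h2)
  have h4 : (Int.gcd c N : ℤ) ∣ c' := hcop.dvd_of_dvd_mul_left h3
  exact Int.natCast_dvd_natCast.mp (Int.dvd_coe_gcd h4 h2)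

/-- `g c' ≡ u c mod N` with `g`, `u` prime to `N` ⟹ `gcd(c, N) = gcd(c', N)`. -/
theorem gcd_eq_of_mul_sub_dvd {N : ℕ} {c c' g u : ℤ} (hgN : IsCoprime g (N : ℤ))
    (huN : IsCoprime u (N : ℤ)) (h : (N : ℤ) ∣ g * c' - u * c) : Int.gcd c N = Int.gcd c' N := by
  apply Nat.dvd_antisymm
  · exact gcd_dvd_gcd_of_mul_sub_dvd hgN h
  · refine gcd_dvd_gcd_of_mul_sub_dvd (g := u) (u := g) huN ?_
    have : u * c - g * c' = -(g * c' - u * c) := by ring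
    rw [this]
    exact (dvd_neg).mpr h

end Fermat.Agent.GB.B3.Boundary
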