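/-
GATE-B / GB-B3-BOUNDARY (L8), sub-lemma (M0) of helper53 6050 (helper47): the calculus of the
nilpotent matrices `n_v = v vᵀ J` and of the unipotent elements `u_v(t) = 1 + t n_v ∈ SL(2, ℤ)`.
Mathlib + `PrimVec` only.

* `nMat v`, `nMat_mul_nMat`, `nMat_smul`, `nMat_neg`, `mul_nMat_mul_adjugate`
  (`g n_v adj(g) = n_{g v}` for EVERY integer matrix `g`, no division);
* `uMat v t : SL(2, ℤ)`, `uMat_add`, `uMat_pow`, `uMat_inv`, `uMat_smul_vec`, `conj_uMat`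
  (`δ u_v(t) δ⁻¹ = u_{δ v}(t)`), `conj_transT_eq_uMat` (`g T^t g⁻¹ = u_{g e₁}(t)`);
* `mul_uMat_mul_adjugate` : `α u_v(t) adj(α) = det α + t n_{α v}`;
* `uMat_mem_Gamma0_iff`, entries, trace;
* `dvd_smul_nMat_iff` : for `v` primitive, `ℓ ∣ s n_v` entrywise iff `ℓ ∣ s`.
-/
import Mathlib
import Fermat.Agent.GB.B3.Boundary.PrimVec

set_option autoImplicit false

open scoped MatrixGroups
open CongruenceSubgroup Matrix

namespace Fermat.Agent.GB.B3.Boundary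

/-- `n_v = v vᵀ J`, `J = [[0, 1], [-1, 0]]`. -/
def nMat (v : Fin 2 → ℤ) : Matrix (Fin 2) (Fin 2) ℤ :=
  !![-(v 0 * v 1), v 0 ^ 2; -(v 1 ^ 2), v 0 * v 1]

theorem nMat_apply (v : Fin 2 → ℤ) (i j : Fin 2) :
    nMat v i j = (!![-(v 0 * v 1), v 0 ^ 2; -(v 1 ^ 2), v 0 * v 1] : Matrix (Fin 2) (Fin 2) ℤ) i j :=
  rfl

@[simp] theorem nMat_zero_zero (v : Fin 2 → ℤ) : nMat v 0 0 = -(v 0 * v 1) := rfl
@[simp] theorem nMat_zero_one (v : Fin 2 → ℤ) : nMat v 0 1 = v 0 ^ 2 := rfl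
@[simp] theorem nMat_one_zero (v : Fin 2 → ℤ) : nMat v 1 0 = -(v 1 ^ 2) := rfl
@[simp] theorem nMat_one_one (v : Fin 2 → ℤ) : nMat v 1 1 = v 0 * v 1 := rfl

/-- extensionality for `2 × 2` integer matrices, entry by entry. -/
theorem ext_two {M M' : Matrix (Fin 2) (Fin 2) ℤ} (h00 : M 0 0 = M' 0 0) (h01 : M 0 1 = M' 0 1)
    (h10 : M 1 0 = M' 1 0) (h11 : M 1 1 = M' 1 1) : M = M' := by
  ext i j
  fin_cases i <;> fin_cases j
  · exact h00
  · exact h01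
  · exact h10
  · exact h11

theorem nMat_mul_nMat (v : Fin 2 → ℤ) : nMat v * nMat v = 0 := by
  apply ext_two <;> simp [Matrix.mul_apply, Fin.sum_univ_two] <;> ring

theorem nMat_mulVec_self (v : Fin 2 → ℤ) : (nMat v).mulVec v = 0 := by
  funext i
  fin_cases i <;> simp [Matrix.mulVec, dotProduct, Fin.sum_univ_two] <;> ring

theorem nMat_smul (m : ℤ) (v : Fin 2 → ℤ) : nMat (m • v) = m ^ 2 • nMat v := by
  apply ext_two <;> simp [Matrix.smul_apply] <;> ring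

theorem nMat_neg (v : Fin 2 → ℤ) : nMat (-v) = nMat v := by
  apply ext_two <;> simp

theorem trace_nMat (v : Fin 2 → ℤ) : (nMat v).trace = 0 := by
  rw [Matrix.trace_fin_two]
  simp

/-- **`g n_v adj(g) = n_{g v}`** for every integer matrix `g`. -/
theorem mul_nMat_mul_adjugate (g : Matrix (Fin 2) (Fin 2) ℤ) (v : Fin 2 → ℤ) :
    g * nMat v * g.adjugate = nMat (g.mulVec v) := by
  rw [Matrix.adjugate_fin_two]
  apply ext_two <;>
    simp [Matrix.mul_apply, Fin.sum_univ_two] <;> ring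

theorem one_add_smul_apply (M : Matrix (Fin 2) (Fin 2) ℤ) (t : ℤ) (i j : Fin 2) :
    (1 + t • M) i j = (1 : Matrix (Fin 2) (Fin 2) ℤ) i j + t * M i j := by
  rw [Matrix.add_apply, Matrix.smul_apply, smul_eq_mul]

theorem det_one_add_smul_nMat (v : Fin 2 → ℤ) (t : ℤ) : (1 + t • nMat v).det = 1 := by
  rw [Matrix.det_fin_two, one_add_smul_apply, one_add_smul_apply, one_add_smul_apply,
    one_add_smul_apply, nMat_zero_zero, nMat_zero_one, nMat_one_zero, nMat_one_one,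
    Matrix.one_apply_eq, Matrix.one_apply_eq, Matrix.one_apply_ne (by decide : (0 : Fin 2) ≠ 1),
    Matrix.one_apply_ne (by decide : (1 : Fin 2) ≠ 0)]
  ring

/-- the unipotent element `u_v(t) = 1 + t n_v`. -/
def uMat (v : Fin 2 → ℤ) (t : ℤ) : SL(2, ℤ) := ⟨1 + t • nMat v, det_one_add_smul_nMat v t⟩

theorem coe_uMat (v : Fin 2 → ℤ) (t : ℤ) :
    (uMat v t : Matrix (Fin 2) (Fin 2) ℤ) = 1 + t • nMat v := rfl

@[simp] theorem uMat_zero_zero (v : Fin 2 → ℤ) (t : ℤ) : uMat v t 0 0 = 1 - t * (v 0 * v 1) := by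
  rw [coe_uMat, one_add_smul_apply, nMat_zero_zero, Matrix.one_apply_eq]; ring
@[simp] theorem uMat_zero_one (v : Fin 2 → ℤ) (t : ℤ) : uMat v t 0 1 = t * v 0 ^ 2 := by
  rw [coe_uMat, one_add_smul_apply, nMat_zero_one,
    Matrix.one_apply_ne (by decide : (0 : Fin 2) ≠ 1), zero_add]
@[simp] theorem uMat_one_zero (v : Fin 2 → ℤ) (t : ℤ) : uMat v t 1 0 = -(t * v 1 ^ 2) := by
  rw [coe_uMat, one_add_smul_apply, nMat_one_zero,
    Matrix.one_apply_ne (by decide : (1 : Fin 2) ≠ 0), zero_add]; ring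
@[simp] theorem uMat_one_one (v : Fin 2 → ℤ) (t : ℤ) : uMat v t 1 1 = 1 + t * (v 0 * v 1) := by
  rw [coe_uMat, one_add_smul_apply, nMat_one_one, Matrix.one_apply_eq]

theorem uMat_zero (v : Fin 2 → ℤ) : uMat v 0 = 1 := by
  apply Subtype.ext
  rw [coe_uMat, zero_smul, add_zero]
  rfl

theorem uMat_add (v : Fin 2 → ℤ) (s t : ℤ) : uMat v (s + t) = uMat v s * uMat v t := by
  apply Subtype.ext
  rw [Matrix.SpecialLinearGroup.coe_mul, coe_uMat, coe_uMat, coe_uMat]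
  have h := nMat_mul_nMat v
  rw [add_mul, mul_add, mul_add, one_mul, mul_one, one_mul, Matrix.smul_mul,
    Matrix.mul_smul, h, smul_zero, smul_zero, add_zero, add_smul, add_assoc,
    add_comm (s • nMat v) (t • nMat v)]

theorem uMat_mul_comm (v : Fin 2 → ℤ) (s t : ℤ) : uMat v s * uMat v t = uMat v t * uMat v s := by
  rw [← uMat_add, ← uMat_add, add_comm]

theorem uMat_inv (v : Fin 2 → ℤ) (t : ℤ) : (uMat v t)⁻¹ = uMat v (-t) := by
  rw [inv_eq_iff_mul_eq_one, ← uMat_add, add_neg_cancel, uMat_zero]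

theorem uMat_pow (v : Fin 2 → ℤ) (t : ℤ) (r : ℕ) : uMat v t ^ r = uMat v (r * t) := by
  induction r with
  | zero => rw [pow_zero, Nat.cast_zero, zero_mul, uMat_zero]
  | succ r ih =>
    rw [pow_succ, ih, ← uMat_add]
    congr 1
    push_cast
    ring

theorem uMat_neg_vec (v : Fin 2 → ℤ) (t : ℤ) : uMat (-v) t = uMat v t := by
  apply Subtype.ext
  rw [coe_uMat, coe_uMat, nMat_neg]

theorem uMat_smul_vec (m : ℤ) (v : Fin 2 → ℤ) (t : ℤ) : uMat (m • v) t = uMat v (m ^ 2 * t) := by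
  apply Subtype.ext
  rw [coe_uMat, coe_uMat, nMat_smul, smul_smul, mul_comm]

theorem trace_uMat (v : Fin 2 → ℤ) (t : ℤ) :
    (uMat v t : Matrix (Fin 2) (Fin 2) ℤ).trace = 2 := by
  rw [Matrix.trace_fin_two, uMat_zero_zero, uMat_one_one]
  ring

/-- **`α u_v(t) adj(α) = det α + t n_{α v}`** for every integer matrix `α`. -/
theorem mul_uMat_mul_adjugate (α : Matrix (Fin 2) (Fin 2) ℤ) (v : Fin 2 → ℤ) (t : ℤ) :
    α * (uMat v t : Matrix (Fin 2) (Fin 2) ℤ) * α.adjugate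
      = α.det • (1 : Matrix (Fin 2) (Fin 2) ℤ) + t • nMat (α.mulVec v) := by
  rw [coe_uMat, mul_add, add_mul, mul_one, Matrix.mul_adjugate, Matrix.mul_smul, Matrix.smul_mul,
    mul_nMat_mul_adjugate]

/-- **`δ u_v(t) δ⁻¹ = u_{δ v}(t)`**. -/
theorem conj_uMat (δ : SL(2, ℤ)) (v : Fin 2 → ℤ) (t : ℤ) :
    δ * uMat v t * δ⁻¹ = uMat ((δ : Matrix (Fin 2) (Fin 2) ℤ).mulVec v) t := by
  apply Subtype.ext
  rw [Matrix.SpecialLinearGroup.coe_mul, Matrix.SpecialLinearGroup.coe_mul,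
    Matrix.SpecialLinearGroup.coe_inv, mul_uMat_mul_adjugate, Matrix.SpecialLinearGroup.det_coe,
    one_smul, coe_uMat]

theorem transT_eq_uMat (t : ℤ) : transT t = uMat ![1, 0] t := by
  apply Subtype.ext
  apply ext_two
  · rw [uMat_zero_zero]; simp [transT]
  · rw [uMat_zero_one]; simp [transT]
  · rw [uMat_one_zero]; simp [transT]
  · rw [uMat_one_one]; simp [transT]

/-- **`g T^t g⁻¹ = u_{g e₁}(t)`** (bridge to the classification of the elements of trace `2`). -/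
theorem conj_transT_eq_uMat (g : SL(2, ℤ)) (t : ℤ) :
    g * transT t * g⁻¹ = uMat (fun i => g i 0) t := by
  rw [transT_eq_uMat, conj_uMat]
  congr 1
  funext i
  fin_cases i <;> simp [Matrix.mulVec, dotProduct, Fin.sum_univ_two]

theorem isCoprime_col (g : SL(2, ℤ)) : IsCoprime (g 0 0) (g 1 0) := by
  have hdet := Matrix.SpecialLinearGroup.det_coe g
  rw [Matrix.det_fin_two] at hdet
  exact ⟨g 1 1, -g 0 1, by linear_combination hdet⟩

theorem uMat_mem_Gamma0_iff {N : ℕ} (v : Fin 2 → ℤ) (t : ℤ) :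
    uMat v t ∈ Gamma0 N ↔ (N : ℤ) ∣ t * v 1 ^ 2 := by
  rw [Gamma0_mem, ZMod.intCast_zmod_eq_zero_iff_dvd, uMat_one_zero, dvd_neg]

/-- **integrality criterion**: for `v` primitive, `ℓ` divides all entries of `s n_v` iff `ℓ ∣ s`. -/
theorem dvd_smul_nMat_iff {ℓ : ℤ} (hℓ : Prime ℓ) {v : Fin 2 → ℤ} (hv : IsCoprime (v 0) (v 1))
    (s : ℤ) : (∀ i j, ℓ ∣ (s • nMat v) i j) ↔ ℓ ∣ s := by
  constructor
  · intro h
    have h01 : ℓ ∣ s * v 0 ^ 2 := by simpa [Matrix.smul_apply] using h 0 1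
    have h10 : ℓ ∣ s * v 1 ^ 2 := by
      have := h 1 0
      simpa [Matrix.smul_apply] using this
    by_contra hs
    have h0 : ℓ ∣ v 0 := hℓ.dvd_of_dvd_pow ((hℓ.dvd_or_dvd h01).resolve_left hs)
    have h1 : ℓ ∣ v 1 := hℓ.dvd_of_dvd_pow ((hℓ.dvd_or_dvd h10).resolve_left hs)
    exact hℓ.not_isUnit (hv.isUnit_of_dvd' h0 h1)
  · intro h i j
    rw [Matrix.smul_apply]
    exact Dvd.dvd.mul_right h _

end Fermat.Agent.GB.B3.Boundary
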