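/-
GATE-B / L8 GB-B3-BOUNDARY part B, second seat (helper2) for helper11: two standalone facts about
`SL(2, ℤ)`, Mathlib only.

* `exists_T_zpow_conj_mem_Gamma0` **(CONJ)** : `N` squarefree, `g g' : SL(2, ℤ)` with
  `gcd (g 1 0) N = gcd (g' 1 0) N`  ⟹  `∃ m : ℤ, g' * T ^ m * g⁻¹ ∈ Γ₀(N)`
  (the cusps `g ∞`, `g' ∞` of `Γ₀(N)` are equivalent as soon as the lower-left entries have the
  same gcd with `N`);
* `exists_conj_T_zpow_of_trace_eq_two` **(UNIP)** : `tr u = 2` ⟹ `u = g * T ^ t * g⁻¹`;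
  `exists_neg_conj_T_zpow_of_trace_eq_neg_two` : `tr u = -2` ⟹ `u = -(g * T ^ t * g⁻¹)`;
  `exists_conj_T_zpow_of_trace_sq_eq_four` : `tr u ^ 2 = 4` ⟹ one of the two.

`T = ModularGroup.T`, `↑(T ^ m) = !![1, m; 0, 1]` (`ModularGroup.coe_T_zpow`).
-/
import Mathlib

set_option autoImplicit false

open scoped MatrixGroups
open CongruenceSubgroup Matrix Matrix.SpecialLinearGroup ModularGroup

namespace Fermat.Agent.GB.B3.Boundary.SL

/-! ### entries -/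

theorem T_zpow_apply (m : ℤ) : (T ^ m : SL(2, ℤ)) 0 0 = 1 ∧ (T ^ m : SL(2, ℤ)) 0 1 = m ∧
    (T ^ m : SL(2, ℤ)) 1 0 = 0 ∧ (T ^ m : SL(2, ℤ)) 1 1 = 1 := by
  rw [coe_T_zpow]
  exact ⟨rfl, rfl, rfl, rfl⟩

theorem T_zpow_apply_zero_zero (m : ℤ) : (T ^ m : SL(2, ℤ)) 0 0 = 1 := (T_zpow_apply m).1

theorem T_zpow_apply_zero_one (m : ℤ) : (T ^ m : SL(2, ℤ)) 0 1 = m := (T_zpow_apply m).2.1

theorem T_zpow_apply_one_zero (m : ℤ) : (T ^ m : SL(2, ℤ)) 1 0 = 0 := (T_zpow_apply m).2.2.1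

theorem T_zpow_apply_one_one (m : ℤ) : (T ^ m : SL(2, ℤ)) 1 1 = 1 := (T_zpow_apply m).2.2.2

theorem sl_mul_apply (g h : SL(2, ℤ)) (i j : Fin 2) :
    (g * h : SL(2, ℤ)) i j = g i 0 * h 0 j + g i 1 * h 1 j := by
  rw [Matrix.SpecialLinearGroup.coe_mul, Matrix.mul_apply, Fin.sum_univ_two]

theorem sl_inv_apply (g : SL(2, ℤ)) :
    (g⁻¹ : SL(2, ℤ)) 0 0 = g 1 1 ∧ (g⁻¹ : SL(2, ℤ)) 0 1 = - g 0 1 ∧
    (g⁻¹ : SL(2, ℤ)) 1 0 = - g 1 0 ∧ (g⁻¹ : SL(2, ℤ)) 1 1 = g 0 0 := by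
  rw [SL2_inv_expl]
  exact ⟨rfl, rfl, rfl, rfl⟩

/-- the lower-left entry of `g' * T ^ m * g⁻¹` -/
theorem conj_apply_one_zero (g g' : SL(2, ℤ)) (m : ℤ) :
    (g' * T ^ m * g⁻¹ : SL(2, ℤ)) 1 0 = g' 1 0 * g 1 1 - g' 1 1 * g 1 0 - g 1 0 * g' 1 0 * m := by
  rw [sl_mul_apply, sl_mul_apply, sl_mul_apply, (sl_inv_apply g).1, (sl_inv_apply g).2.2.1,
    T_zpow_apply_zero_zero, T_zpow_apply_one_zero, T_zpow_apply_zero_one, T_zpow_apply_one_one]
  ring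

/-! ### (CONJ) -/

/-- a linear congruence `a m ≡ b (mod N)` is solvable as soon as `gcd a N ∣ b`. -/
theorem exists_mul_sub_dvd {a b : ℤ} {N : ℕ} (h : (Int.gcd a N : ℤ) ∣ b) :
    ∃ m : ℤ, (N : ℤ) ∣ b - a * m := by
  obtain ⟨k, hk⟩ := h
  refine ⟨Int.gcdA a N * k, ?_⟩
  have hb := Int.gcd_eq_gcd_ab a N
  refine ⟨Int.gcdB a N * k, ?_⟩
  rw [hk, hb]
  ring

/-- for squarefree `N`, `gcd (c c') N` divides `gcd c N` when `gcd c N = gcd c' N`. -/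
theorem gcd_mul_dvd_of_squarefree {N : ℕ} (hN : Squarefree N) {c c' : ℤ}
    (h : Int.gcd c N = Int.gcd c' N) : Int.gcd (c * c') N ∣ Int.gcd c N := by
  have h1 : Int.gcd (c * c') N ∣ Int.gcd c N * Int.gcd c' N := by
    exact Int.gcd_mul_left_dvd_mul_gcd _ _ _
  rw [← h, ← pow_two] at h1
  have hsq : Squarefree (Int.gcd (c * c') N) :=
    hN.squarefree_of_dvd (by
      have := Int.gcd_dvd_right (c * c') (N : ℤ)
      exact Int.natCast_dvd_natCast.mp this)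
  exact (hsq.dvd_pow_iff_dvd two_ne_zero).mp h1

/-- **(CONJ)**: for squarefree `N`, two elements of `SL(2, ℤ)` whose lower-left entries have the
same gcd with `N` satisfy `g' * T ^ m * g⁻¹ ∈ Γ₀(N)` for a suitable `m`. -/
theorem exists_T_zpow_conj_mem_Gamma0 {N : ℕ} (hN : Squarefree N) (g g' : SL(2, ℤ))
    (h : Int.gcd (g 1 0) N = Int.gcd (g' 1 0) N) :
    ∃ m : ℤ, g' * T ^ m * g⁻¹ ∈ Gamma0 N := by
  have hd : (Int.gcd (g 1 0 * g' 1 0) N : ℤ) ∣ g' 1 0 * g 1 1 - g' 1 1 * g 1 0 := by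
    have h0 : (Int.gcd (g 1 0 * g' 1 0) N : ℤ) ∣ (Int.gcd (g 1 0) N : ℤ) :=
      Int.natCast_dvd_natCast.mpr (gcd_mul_dvd_of_squarefree hN h)
    have h1 : (Int.gcd (g 1 0) N : ℤ) ∣ g 1 0 := Int.gcd_dvd_left _ _
    have h2 : (Int.gcd (g 1 0) N : ℤ) ∣ g' 1 0 := by rw [h]; exact Int.gcd_dvd_left _ _
    exact h0.trans (dvd_sub (h2.mul_right _) (h1.mul_left _))
  obtain ⟨m, hm⟩ := exists_mul_sub_dvd hd
  refine ⟨m, ?_⟩
  rw [Gamma0_mem, conj_apply_one_zero, ZMod.intCast_zmod_eq_zero_iff_dvd]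
  exact hm

/-! ### (UNIP) -/

/-- a matrix of `SL(2, ℤ)` with first column `(1, 0)` is a power of `T`. -/
theorem eq_T_zpow_of_col (M : SL(2, ℤ)) (h00 : M 0 0 = 1) (h10 : M 1 0 = 0) :
    M = T ^ (M 0 1) := by
  have hdet := M.det_coe
  rw [Matrix.det_fin_two, h00, h10, one_mul, mul_zero, sub_zero] at hdet
  ext i j
  rw [coe_T_zpow]
  fin_cases i <;> fin_cases j
  · exact h00
  · rfl
  · exact h10
  · exact hdet

/-- **(UNIP)**: an element of `SL(2, ℤ)` of trace `2` is conjugate to a power of `T`. -/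
theorem exists_conj_T_zpow_of_trace_eq_two (u : SL(2, ℤ))
    (hu : (u : Matrix (Fin 2) (Fin 2) ℤ).trace = 2) :
    ∃ (g : SL(2, ℤ)) (t : ℤ), u = g * T ^ t * g⁻¹ := by
  rw [Matrix.trace_fin_two] at hu
  have hdet := u.det_coe
  rw [Matrix.det_fin_two] at hdet
  by_cases hz : u 1 0 = 0
  · -- upper triangular
    refine ⟨1, u 0 1, ?_⟩
    rw [one_mul, inv_one, mul_one]
    have h00 : u 0 0 = 1 := by
      rw [hz, mul_zero, sub_zero] at hdet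
      have h1 : u 1 1 = 2 - u 0 0 := by linarith
      rw [h1] at hdet
      nlinarith [sq_nonneg (u 0 0 - 1)]
    exact eq_T_zpow_of_col u h00 hz
  · -- the fixed vector `(x, z) / gcd`, `x = u 0 0 - 1`, `z = u 1 0`
    set x : ℤ := u 0 0 - 1 with hx
    set z : ℤ := u 1 0 with hzdef
    have hpos : 0 < Int.gcd x z := Int.gcd_pos_of_ne_zero_right _ hz
    obtain ⟨a, c, hac, hxa, hzc⟩ := Int.exists_gcd_one hpos
    set e : ℤ := (Int.gcd x z : ℤ) with he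
    have he0 : e ≠ 0 := by rw [he]; exact_mod_cast hpos.ne'
    have h11 : u 1 1 = 1 - x := by rw [hx]; linarith
    have hrel : x * x + u 0 1 * z = 0 := by
      have : u 0 0 = x + 1 := by rw [hx]; ring
      rw [this, h11] at hdet
      linarith
    -- `u v = v`
    have hv1 : x * a + u 0 1 * c = 0 := by
      have : e * (x * a + u 0 1 * c) = 0 := by
        have h1 : x * x + u 0 1 * z = e * (x * a + u 0 1 * c) := by
          conv_lhs => rw [hzc]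
          conv_lhs => enter [1, 2]; rw [hxa]
          ring
        rw [← h1, hrel]
      exact (mul_eq_zero.mp this).resolve_left he0
    have hv2 : z * a - x * c = 0 := by
      rw [hxa, hzc]; ring
    -- complete `v` to a basis
    have hcop : IsCoprime a c := Int.isCoprime_iff_gcd_eq_one.mpr hac
    obtain ⟨s, r, hsr⟩ := hcop
    -- `s a + r c = 1`; `g = [[a, -r], [c, s]]`
    let g : SL(2, ℤ) := ⟨!![a, -r; c, s], by rw [Matrix.det_fin_two_of]; linarith⟩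
    have hg00 : g 0 0 = a := rfl
    have hg01 : g 0 1 = -r := rfl
    have hg10 : g 1 0 = c := rfl
    have hg11 : g 1 1 = s := rfl
    have hinv00 : (g⁻¹ : SL(2, ℤ)) 0 0 = s := (sl_inv_apply g).1
    have hinv01 : (g⁻¹ : SL(2, ℤ)) 0 1 = r := by rw [(sl_inv_apply g).2.1, hg01, neg_neg]
    have hinv10 : (g⁻¹ : SL(2, ℤ)) 1 0 = -c := by rw [(sl_inv_apply g).2.2.1, hg10]
    have hinv11 : (g⁻¹ : SL(2, ℤ)) 1 1 = a := (sl_inv_apply g).2.2.2
    have hu00 : u 0 0 = x + 1 := by rw [hx]; ring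
    have h00 : (g⁻¹ * u * g : SL(2, ℤ)) 0 0 = 1 := by
      rw [sl_mul_apply, sl_mul_apply, sl_mul_apply, hinv00, hinv01, hg00, hg10, hu00, h11, ← hzdef]
      linear_combination s * hv1 + r * hv2 + hsr
    have h10 : (g⁻¹ * u * g : SL(2, ℤ)) 1 0 = 0 := by
      rw [sl_mul_apply, sl_mul_apply, sl_mul_apply, hinv10, hinv11, hg00, hg10, hu00, h11, ← hzdef]
      linear_combination (-c) * hv1 + a * hv2
    refine ⟨g, (g⁻¹ * u * g : SL(2, ℤ)) 0 1, ?_⟩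
    rw [← eq_T_zpow_of_col _ h00 h10]
    group

/-- trace `-2`: minus a conjugate of a power of `T`. -/
theorem exists_neg_conj_T_zpow_of_trace_eq_neg_two (u : SL(2, ℤ))
    (hu : (u : Matrix (Fin 2) (Fin 2) ℤ).trace = -2) :
    ∃ (g : SL(2, ℤ)) (t : ℤ), u = -(g * T ^ t * g⁻¹) := by
  have h : ((-u : SL(2, ℤ)) : Matrix (Fin 2) (Fin 2) ℤ).trace = 2 := by
    rw [Matrix.SpecialLinearGroup.coe_neg, Matrix.trace_neg, hu, neg_neg]
  obtain ⟨g, t, hgt⟩ := exists_conj_T_zpow_of_trace_eq_two (-u) h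
  exact ⟨g, t, by rw [← hgt, neg_neg]⟩

/-- parabolic (`tr² = 4`): `± ` a conjugate of a power of `T`. -/
theorem exists_conj_T_zpow_of_trace_sq_eq_four (u : SL(2, ℤ))
    (hu : (u : Matrix (Fin 2) (Fin 2) ℤ).trace ^ 2 = 4) :
    ∃ (g : SL(2, ℤ)) (t : ℤ), u = g * T ^ t * g⁻¹ ∨ u = -(g * T ^ t * g⁻¹) := by
  have h : (u : Matrix (Fin 2) (Fin 2) ℤ).trace = 2 ∨
      (u : Matrix (Fin 2) (Fin 2) ℤ).trace = -2 := by
    have h4 : ((u : Matrix (Fin 2) (Fin 2) ℤ).trace - 2) *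
        ((u : Matrix (Fin 2) (Fin 2) ℤ).trace + 2) = 0 := by linear_combination hu
    rcases mul_eq_zero.mp h4 with h1 | h1
    · left; linarith
    · right; linarith
  rcases h with h | h
  · obtain ⟨g, t, hgt⟩ := exists_conj_T_zpow_of_trace_eq_two u h
    exact ⟨g, t, Or.inl hgt⟩
  · obtain ⟨g, t, hgt⟩ := exists_neg_conj_T_zpow_of_trace_eq_neg_two u h
    exact ⟨g, t, Or.inr hgt⟩

end Fermat.Agent.GB.B3.Boundary.SL
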